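import Fermat.Agent.Carayol.Bound

/-!
# Translates and norms in the fraction field of the cover

`fh γ` is the expansion at a translate on the fraction field, `Nf b` the product over the fibre of
a side. A `Move` between two points is an endomorphism commuting with these norms, fixing the
functions of level `q²M'` and carrying the value at one point to the value at the other.
-/

set_option autoImplicit false
set_option linter.unusedSectionVars false
set_option linter.style.haveILetI false
set_option synthInstance.maxHeartbeats 400000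

noncomputable section

open UpperHalfPlane hiding I I_re I_im
open Filter Topology Complex Function FLTAgent.ModEq FLTAgent.GoodModel ModularCurve
open scoped MatrixGroups Manifold Classical

namespace FLTAgent.Carayol

local notation "QA" => AlgebraicClosure ℚ

namespace Ctx

variable {q M0 N' : ℕ} [NeZero M0] [NeZero N'] [NeZero q] [Fact q.Prime] (C : Ctx q M0 N')

/-- The fraction field of the cover. -/
abbrev KR := FractionRing C.R

theorem cplxAt_injective (γ : SL(2, ℤ)) : Injective ((sIncl C.S).comp (C.embAt γ)) :=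
  sIncl_injective.comp (C.embAt_injective γ)

/-- The complex expansion at a translate on the fraction field. -/
def fh (γ : SL(2, ℤ)) : C.KR →+* LaurentSeries ℂ := IsFractionRing.lift (C.cplxAt_injective γ)

theorem fh_alg (γ : SL(2, ℤ)) (a : C.R) :
    C.fh γ (algebraMap C.R C.KR a) = sIncl C.S (C.embAt γ a) :=
  IsFractionRing.lift_algebraMap _ a

theorem fh_injective (γ : SL(2, ℤ)) : Injective (C.fh γ) := (C.fh γ).injective

theorem exists_alg_div (z : C.KR) :
    ∃ a d : C.R, d ≠ 0 ∧ z = algebraMap C.R C.KR a / algebraMap C.R C.KR d := by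
  obtain ⟨a, d, hd, rfl⟩ := IsFractionRing.div_surjective (A := C.R) z
  exact ⟨a, d, nonZeroDivisors.ne_zero hd, rfl⟩

theorem alg_ne {d : C.R} (hd : d ≠ 0) : algebraMap C.R C.KR d ≠ 0 :=
  (map_ne_zero_iff _ (IsFractionRing.injective C.R C.KR)).2 hd

/-- A value of the fraction field with a given expansion. -/
theorem exists_fib_norm (hF : C.FixedPart) (b : Bool) (z : C.KR) :
    ∃ y : C.KR, C.fh 1 y = ∏ l ∈ C.fib b C.one', C.fh (C.rep l) z := by
  obtain ⟨a, d, hd, rfl⟩ := C.exists_alg_div z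
  obtain ⟨Aa, Da, hDa, ha⟩ := C.exists_fib_frac hF b a
  obtain ⟨Ad, Dd, hDd, hd'⟩ := C.exists_fib_frac hF b d
  refine ⟨algebraMap _ _ Aa / algebraMap _ _ Da / (algebraMap _ _ Ad / algebraMap _ _ Dd), ?_⟩
  have key : ∀ x A D : C.R, D ≠ 0 →
      (∀ l, C.emb l D * ∏ l' ∈ C.fib b l, C.emb l' x = C.emb l A) →
      C.fh 1 (algebraMap _ _ A / algebraMap _ _ D) =
        ∏ l ∈ C.fib b C.one', C.fh (C.rep l) (algebraMap _ _ x) := fun x A D hD h => by
    rw [map_div₀, C.fh_alg, C.fh_alg,
      div_eq_iff ((map_ne_zero_iff _ sIncl_injective).2 ((map_ne_zero_iff _ (C.embAt_injective 1)).2 hD)), ← C.emb_one' A, ← C.emb_one' D,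
      ← h C.one', map_mul, map_prod, mul_comm]
    simp only [C.fh_alg]
    rfl
  rw [map_div₀, key a Aa Da hDa ha, key d Ad Dd hDd hd', ← Finset.prod_div_distrib]
  simp only [map_div₀]

/-- The product over the fibre of a side. -/
def Nf (hF : C.FixedPart) (b : Bool) : C.KR →* C.KR where
  toFun z := (C.exists_fib_norm hF b z).choose
  map_one' := C.fh_injective 1 <| by
    rw [(C.exists_fib_norm hF b 1).choose_spec, map_one]
    simp
  map_mul' x y := C.fh_injective 1 <| by
    rw [(C.exists_fib_norm hF b (x * y)).choose_spec, map_mul,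
      (C.exists_fib_norm hF b x).choose_spec, (C.exists_fib_norm hF b y).choose_spec,
      ← Finset.prod_mul_distrib]
    simp only [map_mul]

theorem fh_Nf (hF : C.FixedPart) (b : Bool) (z : C.KR) :
    C.fh 1 (C.Nf hF b z) = ∏ l ∈ C.fib b C.one', C.fh (C.rep l) z :=
  (C.exists_fib_norm hF b z).choose_spec

theorem Nf_alg (hF : C.FixedPart) (b : Bool) {x A D : C.R}
    (h : ∀ l, C.emb l D * ∏ l' ∈ C.fib b l, C.emb l' x = C.emb l A) :
    algebraMap C.R C.KR D * C.Nf hF b (algebraMap C.R C.KR x) = algebraMap C.R C.KR A := by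
  refine C.fh_injective 1 ?_
  rw [map_mul, C.fh_Nf, C.fh_alg, C.fh_alg, ← C.emb_one' A, ← C.emb_one' D, ← h C.one', map_mul,
    map_prod]
  simp only [C.fh_alg]
  rfl

theorem Nf_ne (hF : C.FixedPart) (b : Bool) {z : C.KR} (hz : z ≠ 0) : C.Nf hF b z ≠ 0 := fun h => by
  have h1 := C.fh_Nf hF b z
  rw [h, map_zero] at h1
  obtain ⟨l, -, hl⟩ := Finset.prod_eq_zero_iff.1 h1.symm
  exact hz ((C.fh (C.rep l)).injective (hl.trans (map_zero _).symm))

theorem Nf_cW (hF : C.FixedPart) (b : Bool) (w : C.W) :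
    C.Nf hF b (algebraMap C.R C.KR (C.cW w)) = algebraMap C.R C.KR (C.cW w) ^ q := by
  refine C.fh_injective 1 ?_
  rw [C.fh_Nf, map_pow, C.fh_alg, C.embAt_cW]
  simp only [C.fh_alg, C.embAt_cW, Finset.prod_const, Ctx.card_fib]

end Ctx

namespace Pull

variable {q M0 N' : ℕ} [NeZero M0] [NeZero N'] [NeZero q] [Fact q.Prime]
variable {C : Ctx q M0 N'} {M' : ℕ} [NeZero M'] (P : Pull C M')

theorem fh_alg_eps (γ : SL(2, ℤ)) (a : C.R) : C.fh γ (algebraMap C.R C.KR a) = P.eps γ a := by
  rw [C.fh_alg, P.eps_eq]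

/-- The element is a function of level `q M' q`. -/
def IsFix (z : C.KR) : Prop :=
  ∃ f : modularFunctionFieldBar (q * M' * q), C.fh 1 z = P.Theta 1 f

theorem isFix_mul {z z' : C.KR} (h : P.IsFix z) (h' : P.IsFix z') : P.IsFix (z * z') := by
  obtain ⟨f, hf⟩ := h
  obtain ⟨f', hf'⟩ := h'
  exact ⟨f * f', by rw [map_mul, map_mul, hf, hf']⟩

theorem isFix_pow {z : C.KR} (h : P.IsFix z) (e : ℕ) : P.IsFix (z ^ e) := by
  obtain ⟨f, hf⟩ := h
  exact ⟨f ^ e, by rw [map_pow, map_pow, hf]⟩

/-- The expansions at all translates of a fixed element. -/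
theorem fh_of_fix {z : C.KR} {f : modularFunctionFieldBar (q * M' * q)}
    (h : C.fh 1 z = P.Theta 1 f) (γ : SL(2, ℤ)) : C.fh γ z = P.Theta γ f := by
  obtain ⟨a, d, hd, rfl⟩ := C.exists_alg_div z
  have hne : ∀ σ, P.eps σ d ≠ 0 := fun σ h0 =>
    hd (P.eps_injective σ (h0.trans (map_zero _).symm))
  rw [map_div₀, P.fh_alg_eps, P.fh_alg_eps, div_eq_iff (hne 1), mul_comm] at h
  rw [map_div₀, P.fh_alg_eps, P.fh_alg_eps, div_eq_iff (hne γ), mul_comm, P.Theta_eps h.symm γ]

variable {k : Type} [Field k] {Ω : Res C k}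

/-- A move from the point `p` to the point `p'`. -/
structure Move (p p' : Pt Ω) where
  δ : C.KR →+* C.KR
  comm : ∀ (b : Bool) (z : C.KR), C.Nf Ω.fixed b (δ z) = δ (C.Nf Ω.fixed b z)
  fix : ∀ z : C.KR, P.IsFix z → δ z = z
  move : ∀ a : C.R, ∃ (n d : C.R), p.π d ≠ 0 ∧
    algebraMap C.R C.KR d * δ (algebraMap C.R C.KR a) = algebraMap C.R C.KR n ∧
    p.π n = p.π d * p'.π a

/-- The trivial move. -/
def Move.refl (p : Pt Ω) : P.Move p p where
  δ := RingHom.id _
  comm _ _ := rfl
  fix _ _ := rfl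
  move a := ⟨a, 1, by rw [map_one]; exact one_ne_zero, by rw [map_one, one_mul]; rfl,
    by rw [map_one, one_mul]⟩

end Pull

end FLTAgent.Carayol
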