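import Fermat.Agent.Entry.Gluing.Root
import Fermat.Agent.Carayol.Series

/-!
# A root in the function field of the cover for trivial gluing
-/

set_option autoImplicit false
set_option linter.unusedSectionVars false
set_option linter.style.haveILetI false
set_option synthInstance.maxHeartbeats 400000

noncomputable section

open UpperHalfPlane hiding I I_re I_im
open Filter Topology Complex Function FLTAgent.ModEq FLTAgent.GoodModel ModularCurve
open scoped MatrixGroups Manifold Classical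

namespace FLTAgent.Carayol

variable {q M0 N' : ℕ} [NeZero M0] [NeZero N'] [NeZero q] [Fact q.Prime] {C : Ctx q M0 N'}
variable {k : Type} [Field k] {Ω : Res C k}
variable [IsDiscreteValuationRing C.S] [IsAlgClosed k] [IsNoetherianRing C.W]

namespace Ram

variable (ρ : Ram Ω) {L : Type*} [Field L] [IsAlgClosed L] {A : ValuationSubring L} {π : A →+* k}

include ρ in
set_option maxHeartbeats 400000 in
/-- A normalised function with trivial gluing is a power in the function field of the cover. -/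
theorem exists_root_of_glued (hπ : Surjective π) (hA : Specialization.RankOne π) (jO : C.S →+* A)
    (hjO : Injective jO) (hjφ : π.comp jO = Ω.φ) {n : ℕ} (hn : (n : k) ≠ 0)
    (hnW : IsUnit (n : C.W)) (hcop : Nat.Coprime q n) (hcop' : Nat.Coprime (q - 1) n) {F : C.R}
    (hF : ∀ g j, Ω.rs g j F ≠ 0) (hvF : C.VDvd n F) (NA : NRel Ω n false F) (NB : NRel Ω n true F)
    (Eq' : Eqs Ω) {κα κβ : k} (hκβ : κβ ≠ 0)
    (hα : κα ^ n * Ω.φW NA.c1 = Ω.φW NA.c0) (hβ : κβ ^ n * Ω.φW NB.c1 = Ω.φW NB.c0)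
    (hglue : ∀ p : Pt Ω, p.π Eq'.OmR = 0 → ∀ s v h : C.R, p.π s ≠ 0 → p.π v ≠ 0 →
      s * F = v * h ^ n → ∃ u : k, u ^ n = (p.π v / p.π s) ^ q ∧
        ∀ g j, RingHom.ker (Ω.rs g j) ≤ p.ideal → ∀ j',
          (gS NA κα g j' / ∏ l ∈ C.fib false (C.lg g j'), Ω.rd (C.emb l h), u) ∈ p.EV g j ∧
          (gS NB κβ g j' / ∏ l ∈ C.fib true (C.lg g j'), Ω.rd (C.emb l h), u) ∈ p.EV g j)
    (K : Subfield (LaurentSeries L)) (hC : ∀ x : L, HahnSeries.C x ∈ K)
    (hR : ∀ a : C.R, toL jO (C.emb C.one' a) ∈ K) :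
    ∃ g ∈ K, g ^ n = toL jO (C.emb C.one' F) := by
  have hn0 : n ≠ 0 := fun h => hn (by simp [h])
  haveI : NeZero n := ⟨hn0⟩
  obtain ⟨a, j, e, ha, hj⟩ := ρ.exists_root_glued hn hcop hcop' hF hvF NA NB Eq' hκβ hα hβ hglue
  have hF0 : F ≠ 0 := fun h => by
    obtain ⟨l⟩ : Nonempty C.Idx := ⟨C.one'⟩
    exact hF (C.sheet l) (C.kind l) (by rw [h, map_zero])
  obtain ⟨rb, hrb⟩ := C.exists_basis
  set eq' := Fintype.equivFin C.Idx
  set σ : Option (Fin M0) → Fin (Fintype.card C.Idx) → C.R →+* LaurentSeries C.S :=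
    fun c l => C.embAt (C.rep (eq'.symm l) * C.cr c) with hσ
  have hσn : ∀ l, σ none l = C.emb (eq'.symm l) := fun l => by
    simp only [hσ, Ctx.cr, mul_one, Ctx.emb]
  have hjφ' : ∀ x, π (jO x) = Ω.φ x := fun x => RingHom.congr_fun hjφ x
  obtain ⟨u, hu⟩ := hnW.exists_right_inv
  have hϖdvd : ∀ (c : Option (Fin M0)) (l : Fin (Fintype.card C.Idx)),
      HahnSeries.C ρ.ϖ ∣ σ c l (q : C.R) := fun c l => by
    rw [map_natCast, ← map_natCast (HahnSeries.C : C.S →+* LaurentSeries C.S), ρ.hq, map_mul, map_pow]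
    exact dvd_mul_of_dvd_right (dvd_pow_self _ (by have := C.hq.two_le; omega)) _
  obtain ⟨g, hgK, hg⟩ := exists_nth_root (F := FractionRing C.R) hπ hA jO hjO ρ.irr
    (by rw [hjφ', ρ.φϖ]) (fun x hx => ρ.ker_φ (by rwa [← hjφ']))
    (fun y => by obtain ⟨w, hw⟩ := Ω.surjW y; exact ⟨C.inc w, (hjφ' _).trans hw⟩)
    C.cW C.inc (fun i => C.inc (C.co.c i)) (fun i i' hne => by
      rw [← map_sub]; exact (C.co.cusp.1 i i' hne).map C.inc)
    C.Tc (Nat.pos_of_ne_zero (NeZero.ne (N' * q))) C.atPuncture_Tc C.leadAt_Tc_none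
    σ (fun c l => C.embAt_injective _) (fun c l w => C.embAt_cW _ w)
    (fun a => by
      obtain ⟨P, s, hP⟩ := C.exists_trace_cusp Ω.fixed a
      refine ⟨P, s, fun c => ?_⟩
      rw [← hP c]
      congr 1
      exact Fintype.sum_equiv eq'.symm _ _ fun l => rfl)
    rb (by simpa only [hσn] using hrb) hn (f := F) hF0 hvF
    (fun c l => by
      rw [hjφ]
      show Ω.red (C.rep (eq'.symm l) * C.cr c) F ≠ 0
      obtain ⟨l', hl'⟩ := Ω.exists_ker_eq (C.rep (eq'.symm l) * C.cr c)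
      refine fun h0 => hF (C.sheet l') (C.kind l') ?_
      have h1 : F ∈ Ω.ker (C.rep l') := by rw [← hl']; exact h0
      rw [← Ω.red_rep]
      exact h1)
    (u := C.cW u) (by rw [← map_natCast C.cW, ← map_mul, hu, map_one])
    (ϖR := (q : C.R)) hϖdvd ha hj (eq' C.one') K hC
    (by
      have h1 := hR C.yR
      rwa [show C.emb C.one' C.yR = C.Tc none from by
        rw [C.emb_one', C.embAt_apply, Ctx.Tc]; exact congrArg ser (Subtype.ext rfl)] at h1)
    (fun a => by rw [hσn, Equiv.symm_apply_apply]; exact hR a)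
  rw [hσn, Equiv.symm_apply_apply] at hg
  exact ⟨g, hgK, hg⟩

end Ram

namespace Pull.Datum

variable {M' : ℕ} [NeZero M'] {P : Pull C M'} {n : ℕ} (D : P.Datum Ω n)

set_option maxHeartbeats 800000 in
/-- If the quotient of the values is constant on the supersingular points, the constants of the
roots can be chosen with equal values at all of them. -/
theorem exists_glue (hn : n ≠ 0) (E : Eqs Ω) (r : k)
    (hr : ∀ p : Pt Ω, p.π E.OmR = 0 → ∀ r', D.Raw p r' → r' = r) :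
    ∃ κα κβ : k, κβ ≠ 0 ∧ κα ^ n * Ω.φW (D.N false).c1 = Ω.φW (D.N false).c0 ∧
      κβ ^ n * Ω.φW (D.N true).c1 = Ω.φW (D.N true).c0 ∧
      ∀ p : Pt Ω, p.π E.OmR = 0 → ∀ s v h : C.R, p.π s ≠ 0 → p.π v ≠ 0 →
        s * D.F = v * h ^ n → ∃ u : k, u ^ n = (p.π v / p.π s) ^ q ∧
          ∀ g j, RingHom.ker (Ω.rs g j) ≤ p.ideal → ∀ j',
            (Ram.gS (D.N false) κα g j' / ∏ l ∈ C.fib false (C.lg g j'), Ω.rd (C.emb l h), u) ∈
              p.EV g j ∧
            (Ram.gS (D.N true) κβ g j' / ∏ l ∈ C.fib true (C.lg g j'), Ω.rd (C.emb l h), u) ∈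
              p.EV g j := by
  obtain ⟨κα, hκα, hα⟩ := Ram.exists_kappa hn (D.N false)
  by_cases hex : ∃ p : Pt Ω, p.π E.OmR = 0 ∧ ∃ s v h : C.R, p.π s ≠ 0 ∧ p.π v ≠ 0 ∧
      s * D.F = v * h ^ n
  swap
  · obtain ⟨κβ, hκβ, hβ⟩ := Ram.exists_kappa hn (D.N true)
    exact ⟨κα, κβ, hκβ, hα, hβ, fun p hp s v h hs hv he => absurd ⟨p, hp, s, v, h, hs, hv, he⟩ hex⟩
  obtain ⟨p₀, hp₀, s₀, v₀, h₀, hs₀, hv₀, he₀⟩ := hex
  obtain ⟨y, hy⟩ := D.exists_values hn p₀ E hp₀ hs₀ hv₀ he₀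
  have hr₀ := hr p₀ hp₀ _ ⟨s₀, v₀, h₀, hs₀, hv₀, he₀, y, fun b => ⟨(hy b).1, (hy b).2.2⟩, rfl⟩
  have hr0 : r ≠ 0 := hr₀ ▸ div_ne_zero (hy false).1 (hy true).1
  refine ⟨κα, κα * r, mul_ne_zero hκα hr0, hα, ?_, fun p hp s v h hs hv he => ?_⟩
  · have hV : ((p₀.π v₀ / p₀.π s₀) ^ q : k) ≠ 0 := pow_ne_zero _ (div_ne_zero hv₀ hs₀)
    have h0 := (D.N false).hc0
    have h1 := (D.N false).hc1
    have h2 := (D.N true).hc0
    have h3 := (D.N true).hc1
    rw [mul_pow, ← hr₀, div_pow, (hy false).2.1, (hy true).2.1]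
    field_simp
    linear_combination hα
  · obtain ⟨z, hz⟩ := D.exists_values hn p E hp hs hv he
    have hr1 := hr p hp _ ⟨s, v, h, hs, hv, he, z, fun b => ⟨(hz b).1, (hz b).2.2⟩, rfl⟩
    refine ⟨κα * z false, ?_, fun g j hle j' => ⟨?_, ?_⟩⟩
    · have h0 := (D.N false).hc0
      rw [mul_pow, (hz false).2.1]
      field_simp
      linear_combination hα
    · exact p.ev_quo E hp (D.N false) κα (hz false).2.2 (D.local_ne p hs he hn) g j hle j'
    · rw [show κα * z false = κα * r * z true by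
        rw [mul_assoc, ← hr1, div_mul_cancel₀ _ (hz true).1]]
      exact p.ev_quo E hp (D.N true) (κα * r) (hz true).2.2 (D.local_ne p hs he hn) g j hle j'

end Pull.Datum

end FLTAgent.Carayol
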