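import Fermat.Agent.Entry.Gluing.Split
import Fermat.Agent.Entry.Gluing.Series
import Fermat.Agent.EigenLattice.Galois

/-!
# The count of the fixed classes killed by both push forwards

A class has a difference of orders in `ZMod p`; a class of difference zero has a gluing function on
the classes of supersingular points, up to a constant, and a class with constant gluing is zero.
-/

set_option autoImplicit false
set_option linter.unusedSectionVars false
set_option linter.style.haveILetI false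
set_option synthInstance.maxHeartbeats 400000
set_option maxHeartbeats 1000000

noncomputable section

open Function AlgebraicCurve IsLocalRing ModularCurve FLTAgent.ModEq FLTAgent.GoodModel
open scoped Classical

namespace FLTAgent.Carayol

local notation "QA" => AlgebraicClosure ℚ
local notation "GG" => (AlgebraicClosure ℚ ≃ₐ[ℚ] AlgebraicClosure ℚ)

namespace Pull.Datum

variable {q M0 N' M' : ℕ} [NeZero M0] [NeZero N'] [NeZero q] [Fact q.Prime] [NeZero M']
variable {C : Ctx q M0 N'} {P : Pull C M'} {k : Type} [Field k] {Ω : Res C k}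
variable [IsDiscreteValuationRing C.S] [IsAlgClosed k] [IsNoetherianRing C.W] {n : ℕ}
  (D : P.Datum Ω n)

theorem raw_pow (hn : n ≠ 0) (E : Eqs Ω) {p : Pt Ω} (hss : p.π E.OmR = 0) {r : k}
    (h : D.Raw p r) :
    r ^ n = Ω.φW (D.N false).c1 / Ω.φW (D.N false).c0 /
      (Ω.φW (D.N true).c1 / Ω.φW (D.N true).c0) := by
  obtain ⟨s, v, h, hs, hv, he, y, hy, rfl⟩ := h
  obtain ⟨z, hz⟩ := D.exists_values hn p E hss hs hv he
  have hyz : ∀ b, y b = z b := fun b => p.valK_unique (hy b).2 (hz b).2.2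
  rw [div_pow, hyz, hyz, (hz false).2.1, (hz true).2.1,
    mul_div_mul_right _ _ (pow_ne_zero _ (div_ne_zero hv hs))]

end Pull.Datum

namespace Pull.Rat

variable {q M0 N' M' : ℕ} [NeZero M0] [NeZero N'] [NeZero q] [Fact q.Prime] [NeZero M']
variable {C : Ctx q M0 N'} {P : Pull C M'} {n : ℕ}

/-- The function represents the class. -/
def Repr (R : P.Rat n) (x : JZero (q * M' * q)) : Prop :=
  ∃ D : Divisor.degZero (K := QA) (F := modularFunctionFieldBar (q * M' * q)), Pic0.mk D = x ∧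
    ∀ v : Place QA (modularFunctionFieldBar (q * M' * q)),
      (n : ℤ) * (D : Divisor QA _) v = v.ord R.f

theorem repr_mul {R R' : P.Rat n} {x y : JZero (q * M' * q)} (h : R.Repr x) (h' : R'.Repr y) :
    (R.mul R').Repr (x + y) := by
  obtain ⟨D, hD, hord⟩ := h
  obtain ⟨D', hD', hord'⟩ := h'
  refine ⟨D + D', by rw [← hD, ← hD']; rfl, fun v => ?_⟩
  show _ = v.ord (R.f * R'.f)
  rw [v.ord_mul R.hf R'.hf, AddSubgroup.coe_add, Finsupp.add_apply, mul_add, hord v, hord' v]

theorem repr_npow {R : P.Rat n} {x : JZero (q * M' * q)} (h : R.Repr x) (e : ℕ) :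
    (R.npow e).Repr ((e + 1) • x) := by
  induction e with
  | zero => rwa [zero_add, one_smul]
  | succ e ih => rw [succ_nsmul]; exact repr_mul ih h

theorem coeff_mem {K : IntermediateField ℚ QA} (hK : P.Small K) (R : P.Rat n) (i : ℤ) :
    (R.f : LaurentSeries QA).coeff i ∈ K := by
  have hmem : P.theta (R.f : LaurentSeries QA) ∈ P.Kf :=
    P.mem_Kf_iff.2 ⟨R.a, R.e, R.he, by rw [← P.Theta_one]; exact R.had⟩
  obtain ⟨x, hx, hxi⟩ := P.coeff_of_mem_Kf hK hmem (((M0 * N' : ℕ) : ℤ) * i)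
  rw [theta, RingHom.comp_apply, qExpand_coeff_mul, coeffMap_coeff] at hxi
  rwa [P.κ.injective hxi]

end Pull.Rat

/-- The counting of functions to roots of unity with one value prescribed. -/
theorem card_le_pow_of_encoding {α k : Type*} [Field k] {p s : ℕ} [NeZero p]
    (d : α → ZMod p) (R : α → Fin s → k) (hR : ∀ x i, R x i ^ p = 1)
    (h1 : 0 < s → ∃ i0, ∀ x, R x i0 = 1) (hinj : ∀ x y, d x = d y → R x = R y → x = y) :
    Nat.card α ≤ p ^ (s - 1 + 1) := by
  rcases Nat.eq_zero_or_pos s with rfl | hs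
  · have := Nat.card_le_card_of_injective d fun x y h => hinj x y h (funext fun i => i.elim0)
    rw [Nat.card_zmod] at this
    simpa using this
  obtain ⟨i0, h0⟩ := h1 hs
  let f : α → ZMod p × ({i : Fin s // i ≠ i0} → rootsOfUnity p k) := fun x =>
    (d x, fun i => rootsOfUnity.mkOfPowEq (R x i.1) (hR x i.1))
  have hf : Function.Injective f := fun x y h => hinj x y (congrArg Prod.fst h) (funext fun i => by
    by_cases hi : i = i0
    · rw [hi, h0, h0]
    · have := congrArg (fun z => ((z.2 ⟨i, hi⟩ : kˣ) : k)) h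
      simpa [f] using this)
  refine (Nat.card_le_card_of_injective f hf).trans ?_
  rw [Nat.card_prod, Nat.card_zmod, Nat.card_fun, pow_succ']
  refine Nat.mul_le_mul_left p ?_
  have hc : Nat.card {i : Fin s // i ≠ i0} = s - 1 := by simp [Fintype.card_subtype_compl]
  rw [hc]
  exact Nat.pow_le_pow_left (card_rootsOfUnity k p) _

namespace Model

variable {A : ValuationSubring QA} {q M0 N' M' : ℕ} [Fact q.Prime] [NeZero q] [NeZero M0]
  [NeZero N'] [NeZero M'] (m : Model A q M0 N' M')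

/-- The hypothesis on descent: a root on the cover of a power of the function kills the class. -/
def Descends (p : ℕ) : Prop :=
  ∀ f : modularFunctionFieldBar (q * M' * q), f ≠ 0 →
    (∀ i, (f : LaurentSeries QA).coeff i ∈ K0 A) →
    ∀ D : Divisor.degZero (K := QA) (F := modularFunctionFieldBar (q * M' * q)),
    (∀ v : Place QA (modularFunctionFieldBar (q * M' * q)),
      (p : ℤ) * (D : Divisor QA _) v = v.ord f) →
    (∀ b, ∃ g : modularFunctionFieldBar (q * M'), g ≠ 0 ∧ ∃ c : QA, c ≠ 0 ∧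
      (letI := algebraAlong (Pull.deg q M' b); Algebra.norm (modularFunctionFieldBar (q * M')) f) =
        algebraMap QA (modularFunctionFieldBar (q * M')) c * g ^ p) →
    ∀ G ∈ m.P.Kc, G ^ p = m.P.Theta 1 f ^ expS q → Pic0.mk D = 0

variable {p : ℕ} [Fact p.Prime]

theorem exists_repr {x : JZero (q * M' * q)}
    (hx : p • x = 0) (hfix : ∀ σ ∈ A.inertiaSubgroupIn ℚ, σ • x = x)
    (hpush : ∀ b, EigenLattice.pushPic (q * M') q (Pull.deg q M' b) x = 0) :
    ∃ R : m.P.Rat p, R.Repr x := by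
  have hp0 : p ≠ 0 := (Fact.out : p.Prime).ne_zero
  obtain ⟨D, f, hf, hDx, hdiv, hgal⟩ := EigenLattice.exists_rational_function hp0 hx
  have hord : ∀ v : Place QA (modularFunctionFieldBar (q * M' * q)),
      (p : ℤ) * (D : Divisor QA _) v = v.ord f := fun v => by
    rw [← Curves.divOf_apply (K := QA) f v, ← hdiv]
    simp
  have hprin : ∀ b, (Divisor.pushforwardAlong (Pull.deg q M' b) (Kronecker.isIntegralAlong _)
      (D : Divisor QA _)).IsPrincipal := fun b => by
    obtain ⟨h1, h2⟩ := EigenLattice.pushPic_mk (q * M') q (Pull.deg q M' b) D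
    have h3 := hpush b
    rw [← hDx, h2] at h3
    exact (QuotientAddGroup.eq_zero_iff _).1 h3
  have hK := m.small
  have hfK : ∀ i, (f : LaurentSeries QA).coeff i ∈ K0 A := fun i => by
    rw [mem_K0]
    intro σ hσ
    have h := congrArg (fun z : LaurentSeries QA => z.coeff i) (hgal σ (hfix σ hσ))
    simp only [coeffMap_coeff] at h
    exact h
  obtain ⟨a, e, he, hae⟩ := m.P.exists_frac_Theta hK f hfK
  have hnorm := fun b => EigenLattice.exists_norm_eq (Pull.deg q M' b)
    (Kronecker.isIntegralAlong _) hf hord (hprin b)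
  exact ⟨⟨f, hf, a, e, he, hae 1, fun b => by
    obtain ⟨g, hg, c, hc, hn⟩ := hnorm b
    exact m.P.relB_of_norm hK hp0 b hfK hf he hae hg hc hn,
    m.P.vDvd hK hf hp0 _ hord he (hae 1), hnorm⟩, D, hDx, hord⟩

include m in
/-- A constant quotient of values gives a root on the cover. -/
theorem exists_root_of_const [IsDiscreteValuationRing m.C.S] [IsAlgClosed (ResidueField A)]
    [IsNoetherianRing m.C.W] (hA : A.LiesOverPrime q) (hpq : p ≠ q) (hp1 : ¬ p ∣ q - 1)
    (E : Eqs m.Ω) (W : m.P.Datum m.Ω p) (r : ResidueField A)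
    (hr : ∀ pt : Pt m.Ω, pt.π E.OmR = 0 → ∀ r', W.Raw pt r' → r' = r) {c : QA} (hc : c ≠ 0)
    {f : modularFunctionFieldBar (q * M' * q)}
    (hX : m.C.fh 1 W.X = HahnSeries.C (m.P.κ c) * m.P.Theta 1 f ^ expS q) :
    ∃ G ∈ m.P.Kc, G ^ p = m.P.Theta 1 f ^ expS q := by
  have hp : p.Prime := Fact.out
  have hq : q.Prime := Fact.out
  haveI := FrobTrace.charP_residueField hA
  have hnk : (p : ResidueField A) ≠ 0 := fun h => hpq
    ((Nat.prime_dvd_prime_iff_eq hq hp).1 ((CharP.cast_eq_zero_iff _ q p).1 h)).symm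
  have hqp : ¬ q ∣ p := fun h => hpq ((Nat.prime_dvd_prime_iff_eq hq hp).1 h).symm
  obtain ⟨κα, κβ, hκβ, hα, hβ, hglue⟩ := W.exists_glue hp.ne_zero E r hr
  have hcoe : (Kronecker.complexEmb.comp (A.subtype.comp m.jO)) = m.C.S.subtype :=
    RingHom.ext m.hjκ
  have hemb : ∀ x : m.C.R, coeffMap Kronecker.complexEmb (toL m.jO (m.C.emb m.C.one' x)) =
      m.P.eps 1 x := fun x => by
    rw [toL, coeffMap_coeffMap, hcoe, m.C.emb_one', m.P.eps_eq]
  obtain ⟨G, hG, hGn⟩ := m.ρ.exists_root_of_glued IsLocalRing.residue_surjective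
    (Specialization.rankOne_residue hA) m.jO m.hjO m.hjφ hnk (m.unitW p hqp)
    (hq.coprime_iff_not_dvd.2 hqp) (Nat.Coprime.symm (hp.coprime_iff_not_dvd.2 hp1))
    W.hF W.hv (W.N false) (W.N true) E hκβ hα hβ hglue
    (m.P.Kc.comap (coeffMap Kronecker.complexEmb))
    (fun x => by
      show coeffMap Kronecker.complexEmb (HahnSeries.C x) ∈ m.P.Kc
      rw [HahnSeries.C_apply, coeffMap_single, ← HahnSeries.C_apply, ← m.hκ]
      exact m.P.C_mem_Kc x)
    (fun x => by
      show coeffMap Kronecker.complexEmb _ ∈ m.P.Kc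
      rw [hemb]
      exact m.P.eps_mem_Kc x)
  obtain ⟨y, hy⟩ := IsAlgClosed.exists_pow_nat_eq c hp.pos
  have hy0 : y ≠ 0 := fun h0 => hc (by rw [← hy, h0, zero_pow hp.ne_zero])
  have hwK : m.C.fh 1 W.w ∈ m.P.Kc := by
    obtain ⟨a, d, -, e⟩ := m.C.exists_alg_div W.w
    rw [e, map_div₀, m.P.fh_alg_eps, m.P.fh_alg_eps]
    exact div_mem (m.P.eps_mem_Kc a) (m.P.eps_mem_Kc d)
  refine ⟨coeffMap Kronecker.complexEmb G / (m.C.fh 1 W.w * HahnSeries.C (m.P.κ y)),
    div_mem hG (mul_mem hwK (m.P.C_mem_Kc y)), ?_⟩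
  have h1 : coeffMap Kronecker.complexEmb G ^ p =
      HahnSeries.C (m.P.κ c) * m.P.Theta 1 f ^ expS q * m.C.fh 1 W.w ^ p := by
    rw [← map_pow, hGn, hemb, ← m.P.fh_alg_eps, W.eq, map_mul, map_pow, hX]
  have hw0 : m.C.fh 1 W.w ≠ 0 := (map_ne_zero _).2 W.hw
  have hc0 : (HahnSeries.C (m.P.κ c) : LaurentSeries ℂ) ≠ 0 :=
    HahnSeries.C_ne_zero ((map_ne_zero _).2 hc)
  rw [div_pow, h1, mul_pow, ← map_pow (HahnSeries.C : ℂ →+* LaurentSeries ℂ), ← map_pow m.P.κ, hy,
    div_eq_iff (mul_ne_zero (pow_ne_zero _ hw0) hc0)]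
  ring

include m in
/-- **The count.** -/
theorem card_le_of_moves (hA : A.LiesOverPrime q) (hp2 : p ≠ 2) (hpq : p ≠ q) (hq : p ∣ q + 1)
    {s : ℕ} (E : Eqs m.Ω) (cls : {pt : Pt m.Ω // pt.π E.OmR = 0} → Fin s)
    (hcls : ∀ pt pt', cls pt = cls pt' → Nonempty (m.P.Move pt.1 pt'.1))
    (hdesc : m.Descends p) (S : AddSubgroup (JZero (q * M' * q)))
    (hS : ∀ x ∈ S, p • x = 0 ∧ (∀ σ ∈ A.inertiaSubgroupIn ℚ, σ • x = x) ∧
      ∀ b, EigenLattice.pushPic (q * M') q (Pull.deg q M' b) x = 0) :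
    Nat.card S ≤ p ^ (s - 1 + 1) := by
  haveI := m.dvr
  haveI := m.noeth
  haveI : IsAlgClosed (ResidueField A) := FrobTrace.isAlgClosed_residueField A
  have hp : p.Prime := Fact.out
  haveI : NeZero p := ⟨hp.ne_zero⟩
  have hp3 : 3 ≤ p := by have := hp.two_le; omega
  have hp1 : ¬ p ∣ q - 1 := fun h => hp2 (by
    have h2 : p ∣ (q + 1) - (q - 1) := Nat.dvd_sub hq h
    rw [show q + 1 - (q - 1) = 2 by have := (Fact.out : q.Prime).two_le; omega] at h2
    exact (Nat.prime_dvd_prime_iff_eq hp Nat.prime_two).1 h2)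
  have hrep : ∀ x : S, ∃ R : m.P.Rat p, R.Repr (x : JZero (q * M' * q)) := fun x => by
    obtain ⟨h1, h2, h3⟩ := hS x x.2
    exact m.exists_repr h1 h2 h3
  choose R hR using hrep
  set d : S → ZMod p := fun x => (R x).diff m.ρ
  set b : ZMod p → S := Function.invFun d
  have hbd : ∀ x, d (b (d x)) = d x := fun x => Function.invFun_eq ⟨x, rfl⟩
  obtain ⟨e, he⟩ : ∃ e, p - 1 = e + 1 := ⟨p - 2, by omega⟩
  set T : S → m.P.Rat p := fun x => (R x).mul ((R (b (d x))).npow e)
  have hpe : ((e + 1 : ℕ) : ZMod p) = -1 := by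
    rw [← he, Nat.cast_sub hp.one_le, ZMod.natCast_self, Nat.cast_one, zero_sub]
  have hT : ∀ x, (T x).diff m.ρ = 0 := fun x => by
    rw [Pull.Rat.diff_mul, Pull.Rat.diff_npow, hpe, neg_one_mul, ← sub_eq_add_neg]
    exact sub_eq_zero.2 (hbd x).symm
  have hdat := fun x => (T x).exists_datum m.ρ
    ((Nat.coprime_primes Nat.prime_two hp).2 (Ne.symm hp2)) hq (hT x)
  choose D c hc hX using hdat
  -- the values at representatives of the classes
  have hraw := fun (x : S) (pt : {pt : Pt m.Ω // pt.π E.OmR = 0}) =>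
    (D x).exists_raw m.ρ hp.ne_zero pt.1 E pt.2
  choose r hr using hraw
  set G : S → Fin s → ResidueField A := fun x i =>
    if h : ∃ pt, cls pt = i then
      r x h.choose / r x (Classical.choice (⟨h.choose⟩ : Nonempty {pt : Pt m.Ω // pt.π E.OmR = 0}))
    else 1
  have hG : ∀ x i, G x i ^ p = 1 := fun x i => by
    simp only [G]
    split_ifs with h
    · rw [div_pow, (D x).raw_pow hp.ne_zero E h.choose.2 (hr x _),
        (D x).raw_pow hp.ne_zero E (Classical.choice (⟨h.choose⟩ : Nonempty {pt : Pt m.Ω // pt.π E.OmR = 0})).2 (hr x _), div_self]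
      exact div_ne_zero (div_ne_zero ((D x).N false).hc1 ((D x).N false).hc0)
        (div_ne_zero ((D x).N true).hc1 ((D x).N true).hc0)
    · exact one_pow p
  refine card_le_pow_of_encoding d G hG (fun hs => ?_) fun x y hd hxy => ?_
  · by_cases hne : Nonempty {pt : Pt m.Ω // pt.π E.OmR = 0}
    · refine ⟨cls (Classical.choice hne), fun x => ?_⟩
      have h : ∃ pt, cls pt = cls (Classical.choice hne) := ⟨_, rfl⟩
      simp only [G, dif_pos h]
      obtain ⟨mv⟩ := hcls _ _ h.choose_spec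
      rw [(D x).raw_move hp.ne_zero E h.choose.2 mv (hr x _) (hr x _)]
      exact div_self ((D x).raw_ne (hr x _))
    · exact ⟨⟨0, hs⟩, fun x => dif_neg fun h => hne ⟨h.choose⟩⟩
  set W := (D x).mul ((D y).npow e)
  have hcst : ∃ r0, ∀ pt : Pt m.Ω, pt.π E.OmR = 0 → ∀ r', W.Raw pt r' → r' = r0 := by
    by_cases hne : Nonempty {pt : Pt m.Ω // pt.π E.OmR = 0}
    swap
    · exact ⟨1, fun pt hpt => absurd ⟨⟨pt, hpt⟩⟩ hne⟩
    set base := Classical.choice hne
    refine ⟨r x base * r y base ^ (e + 1), fun pt hpt r' hr' => ?_⟩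
    have hex : ∃ pt', cls pt' = cls ⟨pt, hpt⟩ := ⟨_, rfl⟩
    have hWr : W.Raw hex.choose.1 (r x hex.choose * r y hex.choose ^ (e + 1)) :=
      Pull.Datum.raw_mul _ _ (hr x _) (Pull.Datum.raw_npow _ (hr y _) e)
    obtain ⟨mv⟩ := hcls _ _ hex.choose_spec
    rw [← W.raw_move hp.ne_zero E hex.choose.2 mv hWr hr']
    have h1 := congrFun hxy (cls ⟨pt, hpt⟩)
    simp only [G, dif_pos hex] at h1
    have hbx := (D x).raw_ne (hr x base)
    have hby := (D y).raw_ne (hr y base)
    have hgy := hG y (cls ⟨pt, hpt⟩)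
    simp only [G, dif_pos hex] at hgy
    rw [eq_comm, div_eq_div_iff hby hbx] at h1
    rw [div_pow, div_eq_one_iff_eq (pow_ne_zero _ hby), show p = e + 1 + 1 by omega] at hgy
    simp only [base] at hbx hby ⊢
    refine mul_right_cancel₀ hby ?_
    rw [pow_succ (r y hex.choose) (e + 1), pow_succ _ (e + 1)] at hgy
    linear_combination (r x (Classical.choice hne)) * hgy + (-(r y hex.choose ^ (e + 1))) * h1
  obtain ⟨r0, hr0⟩ := hcst
  set U := (T x).mul ((T y).npow e)
  have hUX : ∃ c' : QA, c' ≠ 0 ∧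
      m.C.fh 1 W.X = HahnSeries.C (m.P.κ c') * m.P.Theta 1 U.f ^ expS q := by
    refine ⟨c x * c y ^ (e + 1), mul_ne_zero (hc x) (pow_ne_zero _ (hc y)), ?_⟩
    show m.C.fh 1 ((D x).X * ((D y).npow e).X) = _ * m.P.Theta 1 ((T x).f * ((T y).npow e).f) ^ _
    rw [map_mul, ((D y).npow_F e).2, Pull.Rat.npow_f, map_pow, hX x, hX y, map_mul m.P.κ, map_pow,
      map_mul (HahnSeries.C : ℂ →+* LaurentSeries ℂ), map_pow, map_mul (m.P.Theta 1), map_pow]
    ring
  obtain ⟨c', hc', hWX⟩ := hUX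
  obtain ⟨Gr, hGr, hGn⟩ := m.exists_root_of_const hA hpq hp1 E W r0 hr0 hc' hWX
  set z : S := b (d x)
  have hrepr : U.Repr ((x : JZero (q * M' * q)) + (e + 1) • (z : JZero (q * M' * q)) +
      (e + 1) • ((y : JZero (q * M' * q)) + (e + 1) • (z : JZero (q * M' * q)))) := by
    refine Pull.Rat.repr_mul (Pull.Rat.repr_mul (hR x) (Pull.Rat.repr_npow (hR _) e))
      (Pull.Rat.repr_npow ?_ e)
    simp only [T, z, hd]
    exact Pull.Rat.repr_mul (hR y) (Pull.Rat.repr_npow (hR _) e)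
  obtain ⟨Dv, hDv, hordv⟩ := hrepr
  have h0 := hdesc U.f U.hf (U.coeff_mem m.small) Dv hordv U.norm Gr hGr hGn
  rw [hDv] at h0
  have hneg : ∀ u : S, (e + 1) • (u : JZero (q * M' * q)) = -(u : JZero (q * M' * q)) := fun u => by
    refine eq_neg_of_add_eq_zero_left ?_
    rw [← succ_nsmul, show e + 1 + 1 = p by omega]
    exact (hS u u.2).1
  have hsum : (y : JZero (q * M' * q)) + (e + 1) • (z : JZero (q * M' * q)) =
      ((y - z : S) : JZero (q * M' * q)) := by rw [hneg, ← sub_eq_add_neg]; rfl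
  rw [hsum, hneg, hneg] at h0
  refine Subtype.ext (sub_eq_zero.1 ?_)
  rw [← h0, AddSubgroup.coe_sub]
  abel

end Model

end FLTAgent.Carayol
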