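import Fermat.Agent.Entry.Gluing.Value

/-!
# Gluing data and their invariance along moves
-/

set_option autoImplicit false
set_option linter.unusedSectionVars false
set_option linter.style.haveILetI false
set_option synthInstance.maxHeartbeats 400000

noncomputable section

open UpperHalfPlane hiding I I_re I_im
open Filter Topology Complex Function FLTAgent.ModEq FLTAgent.GoodModel ModularCurve
open scoped MatrixGroups Manifold Classical

namespace FLTAgent.Carayol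

variable {q M0 N' : ℕ} [NeZero M0] [NeZero N'] [NeZero q] [Fact q.Prime]
variable {C : Ctx q M0 N'} {M' : ℕ} [NeZero M'] (P : Pull C M') {k : Type} [Field k] {Ω : Res C k}

namespace Pull

/-- A normalised function equal, up to `n`th powers, to a function of level `q²M'`, with norm
relations compatible with this equality. -/
structure Datum (Ω : Res C k) (n : ℕ) where
  F : C.R
  hF : ∀ g j, Ω.rs g j F ≠ 0
  hv : C.VDvd n F
  N : ∀ b, Ram.NRel Ω n b F
  X : C.KR
  w : C.KR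
  hw : w ≠ 0
  hX : P.IsFix X
  eq : algebraMap C.R C.KR F = X * w ^ n
  fixN : ∀ b, P.IsFix (algebraMap C.R C.KR (N b).G0 / algebraMap C.R C.KR (N b).G1 /
    C.Nf Ω.fixed b w)

variable {P}

namespace Datum

variable {n : ℕ} (D : P.Datum Ω n)

theorem F_ne : D.F ≠ 0 := fun h => D.hF ⟨C.eta, C.eta_mem_nodes⟩ 0 (by rw [h, map_zero])

theorem X_ne : D.X ≠ 0 := fun h => C.alg_ne D.F_ne (by rw [D.eq, h, zero_mul])

theorem local_ne (p : Pt Ω) {s v h : C.R} (hs : p.π s ≠ 0) (he : s * D.F = v * h ^ n)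
    (hn : n ≠ 0) : h ≠ 0 := fun h0 => by
  rw [h0, zero_pow hn, mul_zero, mul_eq_zero] at he
  rcases he with he | he
  · exact hs (by rw [he, map_zero])
  · exact D.F_ne he

/-- The quotient of the values of the two norm roots at a point. -/
def Raw (p : Pt Ω) (r : k) : Prop :=
  ∃ s v h : C.R, p.π s ≠ 0 ∧ p.π v ≠ 0 ∧ s * D.F = v * h ^ n ∧
    ∃ y : Bool → k, (∀ b, y b ≠ 0 ∧ p.ValK (Ram.quo (D.N b) (algebraMap C.R C.KR h)) (y b)) ∧
      r = y false / y true

variable [IsAlgClosed k] [IsNoetherianRing C.W]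

/-- The values of the quotients by a local root. -/
theorem exists_values (hn : n ≠ 0) (p : Pt Ω) (E : Eqs Ω) (hss : p.π E.OmR = 0) {s v h : C.R}
    (hs : p.π s ≠ 0) (hv : p.π v ≠ 0) (he : s * D.F = v * h ^ n) :
    ∃ y : Bool → k, ∀ b, y b ≠ 0 ∧
      y b ^ n = Ω.φW (D.N b).c1 / Ω.φW (D.N b).c0 * (p.π v / p.π s) ^ q ∧
      p.ValK (Ram.quo (D.N b) (algebraMap C.R C.KR h)) (y b) := by
  have H := fun b => p.exists_valK_root hn
    (p.valK_quo_pow E hss (D.N b) (D.local_ne p hs he hn) hs he)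
  choose y hy hval using H
  refine ⟨y, fun b => ⟨fun h0 => ?_, hy b, hval b⟩⟩
  have h1 := hy b
  rw [h0, zero_pow hn] at h1
  exact mul_ne_zero (div_ne_zero (D.N b).hc1 (D.N b).hc0) (pow_ne_zero _ (div_ne_zero hv hs)) h1.symm

variable [IsDiscreteValuationRing C.S]

theorem exists_raw (ρ : Ram Ω) (hn : n ≠ 0) (p : Pt Ω) (E : Eqs Ω) (hss : p.π E.OmR = 0) :
    ∃ r, D.Raw p r := by
  obtain ⟨s, v, h, hs, hv, he⟩ := ρ.exists_local_factor D.hF D.hv p
  obtain ⟨y, hy⟩ := D.exists_values hn p E hss hs hv he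
  exact ⟨_, s, v, h, hs, hv, he, y, fun b => ⟨(hy b).1, (hy b).2.2⟩, rfl⟩

theorem raw_ne {p : Pt Ω} {r : k} (h : D.Raw p r) : r ≠ 0 := by
  obtain ⟨s, v, h', -, -, -, y, hy, rfl⟩ := h
  exact div_ne_zero (hy false).1 (hy true).1

/-- The quotient of the values does not change along a move. -/
theorem raw_move (hn : n ≠ 0) {p p' : Pt Ω} (E : Eqs Ω) (hss : p.π E.OmR = 0) (mv : P.Move p p')
    {r r' : k} (hr : D.Raw p r) (hr' : D.Raw p' r') : r = r' := by
  obtain ⟨s, v, h, hs, hv, he, y, hy, rfl⟩ := hr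
  obtain ⟨s', v', h', hs', hv', he', y', hy', rfl⟩ := hr'
  set ι := algebraMap C.R C.KR
  set δ := mv.δ
  have hι : ∀ {a : C.R}, a ≠ 0 → ι a ≠ 0 := fun ha => C.alg_ne ha
  have hδ : ∀ {z : C.KR}, z ≠ 0 → δ z ≠ 0 := fun hz => (map_ne_zero δ).2 hz
  have hdel : ∀ a : C.R, p.ValK (δ (ι a)) (p'.π a) := mv.move
  have hs0 : s ≠ 0 := fun h1 => hs (by rw [h1, map_zero])
  have hs0' : s' ≠ 0 := fun h1 => hs' (by rw [h1, map_zero])
  have hh := D.local_ne p hs he hn
  have hh' := D.local_ne p' hs' he' hn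
  set e : C.KR := δ (ι h') * D.w / (ι h * δ D.w) with hedef
  have hex : ∃ x, x ≠ 0 ∧ p.ValK e x := by
    have hF1 : ι s * (D.X * D.w ^ n) = ι v * ι h ^ n := by
      rw [← D.eq, ← map_mul, he, map_mul, map_pow]
    have hF2 : δ (ι s') * (D.X * δ D.w ^ n) = δ (ι v') * δ (ι h') ^ n := by
      have h1 := congrArg δ (congrArg ι he')
      simp only [map_mul, map_pow] at h1
      rwa [show ι D.F = D.X * D.w ^ n from D.eq, map_mul, map_pow, mv.fix _ D.hX] at h1
    have hen : e ^ n = ι v / ι s / (δ (ι v') / δ (ι s')) := by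
      have h1 : δ (ι v') ≠ 0 := hδ (hι fun h1 => hv' (by rw [h1, map_zero]))
      have h2 := hδ (hι hs0')
      have h3 := hι hs0
      have h4 := pow_ne_zero n (hι hh)
      have h5 := pow_ne_zero n (hδ D.hw)
      have h6 := D.X_ne
      rw [hedef, div_pow, mul_pow, mul_pow, div_div_div_eq,
        div_eq_div_iff (mul_ne_zero h4 h5) (mul_ne_zero h3 h1)]
      refine mul_left_cancel₀ h6 ?_
      linear_combination (δ (ι v') * δ (ι h') ^ n) * hF1 - (ι h ^ n * ι v) * hF2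
    have hx := p.valK_div (p.valK_div (p.valK_alg v) (p.valK_alg s) hs)
      (p.valK_div (hdel v') (hdel s') hs') (div_ne_zero hv' hs')
    rw [← hen] at hx
    obtain ⟨x, hx1, hx2⟩ := p.exists_valK_root hn hx
    refine ⟨x, fun h0 => ?_, hx2⟩
    rw [h0, zero_pow hn] at hx1
    exact div_ne_zero (div_ne_zero hv hs) (div_ne_zero hv' hs') hx1.symm
  obtain ⟨x, hx0, hx⟩ := hex
  have hval : ∀ b, y' b = y b / x ^ q := fun b => by
    have h1 := p.valK_div (hy b).2 (p.valK_Nf E hss b hx) (pow_ne_zero _ hx0)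
    obtain ⟨m, d, hd, e1, e2⟩ := (hy' b).2
    have hd0 : d ≠ 0 := fun h0 => hd (by rw [h0, map_zero])
    have h2 : p.ValK (δ (Ram.quo (D.N b) (ι h'))) (y' b) := by
      have := p.valK_div (hdel m) (hdel d) hd
      rwa [← e1, map_mul, mul_div_cancel_left₀ _ (hδ (hι hd0)), e2,
        mul_div_cancel_left₀ _ hd] at this
    have hkey : δ (Ram.quo (D.N b) (ι h')) =
        Ram.quo (D.N b) (ι h) / C.Nf Ω.fixed b e := by
      have hZ := mv.fix _ (D.fixN b)
      set G := ι (D.N b).G0 / ι (D.N b).G1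
      have hGe : G = G / C.Nf Ω.fixed b D.w * C.Nf Ω.fixed b D.w :=
        (div_mul_cancel₀ _ (C.Nf_ne _ b D.hw)).symm
      have hN1 := C.Nf_ne Ω.fixed b D.hw
      have hN2 := C.Nf_ne Ω.fixed b (hι hh)
      have hN3 := C.Nf_ne Ω.fixed b (hδ (hι hh'))
      have hN4 := C.Nf_ne Ω.fixed b (hδ D.hw)
      have hNe : C.Nf Ω.fixed b e * (C.Nf Ω.fixed b (ι h) * C.Nf Ω.fixed b (δ D.w)) =
          C.Nf Ω.fixed b (δ (ι h')) * C.Nf Ω.fixed b D.w := by
        rw [← map_mul, ← map_mul, ← map_mul, hedef,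
          div_mul_cancel₀ _ (mul_ne_zero (hι hh) (hδ D.hw))]
      have hNe0 : C.Nf Ω.fixed b e ≠ 0 := C.Nf_ne _ b (div_ne_zero (mul_ne_zero (hδ (hι hh')) D.hw)
        (mul_ne_zero (hι hh) (hδ D.hw)))
      show δ (G / C.Nf Ω.fixed b (ι h')) = G / C.Nf Ω.fixed b (ι h) / C.Nf Ω.fixed b e
      rw [map_div₀, ← mv.comm b (ι h'), div_div]
      conv_lhs => rw [hGe, map_mul, hZ, ← mv.comm b D.w]
      rw [div_mul_eq_mul_div, div_div, div_eq_div_iff (mul_ne_zero hN1 hN3) (mul_ne_zero hN2 hNe0)]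
      linear_combination G * hNe
    rw [hkey] at h2
    exact p.valK_unique h2 h1
  rw [hval, hval, div_div_div_cancel_right₀ (pow_ne_zero _ hx0)]

theorem raw_unique (hn : n ≠ 0) {p : Pt Ω} (E : Eqs Ω) (hss : p.π E.OmR = 0) {r r' : k}
    (hr : D.Raw p r) (hr' : D.Raw p r') : r = r' :=
  D.raw_move hn E hss (Move.refl P p) hr hr'

end Datum

end Pull

namespace Ram

variable {n : ℕ} {b : Bool} {F F' : C.R}

/-- The product of two norm relations. -/
def nrelMul (N : NRel Ω n b F) (N' : NRel Ω n b F') : NRel Ω n b (F * F') where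
  c0 := N.c0 * N'.c0
  c1 := N.c1 * N'.c1
  G0 := N.G0 * N'.G0
  G1 := N.G1 * N'.G1
  hc0 := by rw [map_mul]; exact mul_ne_zero N.hc0 N'.hc0
  hc1 := by rw [map_mul]; exact mul_ne_zero N.hc1 N'.hc1
  hG g j := by
    simp only [map_mul]
    exact ⟨mul_ne_zero (N.hG g j).1 (N'.hG g j).1, mul_ne_zero (N.hG g j).2 (N'.hG g j).2⟩
  rel l := by
    simp only [map_mul, mul_pow, Finset.prod_mul_distrib]
    linear_combination (HahnSeries.C (C.inc N'.c1) * C.emb l N'.G1 ^ n *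
      ∏ l' ∈ C.fib b l, C.emb l' F') * N.rel l +
      (HahnSeries.C (C.inc N.c0) * C.emb l N.G0 ^ n) * N'.rel l

end Ram

theorem Ctx.vDvd_mul {n : ℕ} {f g : C.R} (hf : f ≠ 0) (hg : g ≠ 0) (h : C.VDvd n f)
    (h' : C.VDvd n g) : C.VDvd n (f * g) := fun v hv => by
  rw [map_mul, hv.map_mul _ _ (C.alg_ne hf) (C.alg_ne hg)]
  exact dvd_add (h v hv) (h' v hv)

namespace Pull.Datum

variable {P} {n : ℕ}

/-- The product of two gluing data. -/
def mul (D D' : P.Datum Ω n) : P.Datum Ω n where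
  F := D.F * D'.F
  hF g j := by rw [map_mul]; exact mul_ne_zero (D.hF g j) (D'.hF g j)
  hv := Ctx.vDvd_mul D.F_ne D'.F_ne D.hv D'.hv
  N b := Ram.nrelMul (D.N b) (D'.N b)
  X := D.X * D'.X
  w := D.w * D'.w
  hw := mul_ne_zero D.hw D'.hw
  hX := P.isFix_mul D.hX D'.hX
  eq := by rw [map_mul, D.eq, D'.eq]; ring
  fixN b := by
    show P.IsFix (algebraMap C.R C.KR ((D.N b).G0 * (D'.N b).G0) /
      algebraMap C.R C.KR ((D.N b).G1 * (D'.N b).G1) / C.Nf Ω.fixed b (D.w * D'.w))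
    simp only [map_mul, ← div_mul_div_comm]
    exact P.isFix_mul (D.fixN b) (D'.fixN b)

/-- Powers of gluing data. -/
def npow (D : P.Datum Ω n) : ℕ → P.Datum Ω n
  | 0 => D
  | e + 1 => (D.npow e).mul D

theorem npow_F (D : P.Datum Ω n) (e : ℕ) : (D.npow e).F = D.F ^ (e + 1) ∧ (D.npow e).X = D.X ^ (e + 1) := by
  induction e with
  | zero => simp [npow]
  | succ e ih => exact ⟨by rw [pow_succ, ← ih.1]; rfl, by rw [pow_succ, ← ih.2]; rfl⟩

theorem raw_mul (D D' : P.Datum Ω n) {p : Pt Ω} {r r' : k} (h : D.Raw p r) (h' : D'.Raw p r') :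
    (D.mul D').Raw p (r * r') := by
  obtain ⟨s, v, h, hs, hv, he, y, hy, rfl⟩ := h
  obtain ⟨s', v', h', hs', hv', he', y', hy', rfl⟩ := h'
  refine ⟨s * s', v * v', h * h', by rw [map_mul]; exact mul_ne_zero hs hs',
    by rw [map_mul]; exact mul_ne_zero hv hv', ?_, fun b => y b * y' b, fun b => ?_,
    div_mul_div_comm _ _ _ _⟩
  · show s * s' * (D.F * D'.F) = _
    rw [mul_pow, mul_mul_mul_comm, he, he']; ring
  · refine ⟨mul_ne_zero (hy b).1 (hy' b).1, ?_⟩
    have := p.valK_mul (hy b).2 (hy' b).2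
    convert this using 1
    show Ram.quo (Ram.nrelMul (D.N b) (D'.N b)) _ = _
    simp only [Ram.quo, Ram.nrelMul, map_mul, div_mul_div_comm]

theorem raw_npow (D : P.Datum Ω n) {p : Pt Ω} {r : k} (h : D.Raw p r) (e : ℕ) :
    (D.npow e).Raw p (r ^ (e + 1)) := by
  induction e with
  | zero => rwa [zero_add, pow_one]
  | succ e ih => rw [pow_succ]; exact raw_mul _ D ih h

end Pull.Datum

end FLTAgent.Carayol
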