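import Fermat.Agent.Entry.Gluing.Count
import Fermat.Agent.Entry.Interface

/-!
# The bound for the fixed classes from moves and descent
-/

set_option autoImplicit false
set_option linter.unusedSectionVars false
set_option linter.style.haveILetI false
set_option synthInstance.maxHeartbeats 400000

noncomputable section

open AlgebraicCurve IsLocalRing ModularCurve

namespace FLTAgent.Entry

local notation "QA" => AlgebraicClosure ℚ

open FLTAgent.Curves FLTAgent.Specialization FLTAgent.BadRed FLTAgent.Lowering.P7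

attribute [local instance 2000] fullCAlgebra laurentAlgebra x0BarAlgebra

open FLTAgent.Carayol in
theorem card_Xfix_le_of {A : ValuationSubring QA} {q M0 N' M p s : ℕ} [Fact q.Prime] [NeZero q]
    [NeZero M0] [NeZero N'] [NeZero M] [Fact p.Prime] (hA : A.LiesOverPrime q)
    (m : Model A q M0 N' M) (hp2 : p ≠ 2) (hq : p ∣ q + 1) (hpq : p ≠ q) (E : Eqs m.Ω)
    (cls : {pt : Pt m.Ω // pt.π E.OmR = 0} → Fin s)
    (hcls : ∀ pt pt', cls pt = cls pt' → Nonempty (m.P.Move pt.1 pt'.1))
    (hdesc : m.Descends p) {L : ℕ} [NeZero L] [NeZero (L * q)] (hL : L = q * M) :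
    Nat.card (Xfix L q A p) ≤ p ^ (s - 1 + 1) := by
  subst hL
  exact m.card_le_of_moves hA hp2 hpq hq E cls hcls hdesc (Xfix (q * M) q A p) fun x hx => by
    obtain ⟨h1, h2, h3, h4⟩ := mem_Xfix.1 hx
    exact ⟨h1, h2, fun b => by cases b <;> assumption⟩

end FLTAgent.Entry
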