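import Fermat.Agent.Entry.Gluing.Datum
import Fermat.Agent.Carayol.Glue

/-!
# A root modulo a nilpotent element when the gluing is trivial

If the values of the two norm roots agree at every supersingular point, a normalised function is a
power modulo a nilpotent element, without any loss in the exponent.
-/

set_option autoImplicit false
set_option linter.unusedSectionVars false
set_option linter.style.haveILetI false
set_option synthInstance.maxHeartbeats 400000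

noncomputable section

open UpperHalfPlane hiding I I_re I_im
open Filter Topology Complex Function FLTAgent.ModEq FLTAgent.GoodModel ModularCurve
open scoped MatrixGroups Manifold Classical

namespace FLTAgent.Carayol

theorem exists_inv_exp {m n : ℕ} (hm : 0 < m) (hn : n ≠ 0) (hcop : Nat.Coprime m n) :
    ∃ a b : ℕ, a * m = 1 + b * n := by
  haveI : NeZero n := ⟨hn⟩
  refine ⟨(((ZMod.unitOfCoprime m hcop)⁻¹ : (ZMod n)ˣ) : ZMod n).val + n, ?_⟩
  set a := (((ZMod.unitOfCoprime m hcop)⁻¹ : (ZMod n)ˣ) : ZMod n).val + n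
  have h1 : ((a * m : ℕ) : ZMod n) = ((1 : ℕ) : ZMod n) := by
    simp only [a]
    push_cast
    rw [ZMod.natCast_zmod_val, ZMod.natCast_self, add_zero, ← ZMod.coe_unitOfCoprime m hcop,
      Units.inv_mul]
  have h2 : 1 ≤ a * m := Nat.one_le_iff_ne_zero.2 (mul_ne_zero (by omega) hm.ne')
  obtain ⟨b, hb⟩ := (Nat.modEq_iff_dvd' h2).1 ((ZMod.natCast_eq_natCast_iff _ _ _).1 h1.symm)
  exact ⟨b, by rw [mul_comm b n, ← hb]; omega⟩

theorem root_of_power {K : Type*} [Field K] {X f : K} {a b e n : ℕ} (hab : a * e = 1 + b * n)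
    (hf : f ≠ 0) (hX : X ^ n = f ^ e) : (X ^ a / f ^ b) ^ n = f := by
  rw [div_pow, ← pow_mul, mul_comm a n, pow_mul, hX, ← pow_mul, ← pow_mul, mul_comm e a, hab,
    pow_add, pow_one, mul_div_assoc, div_self (pow_ne_zero _ hf), mul_one]

theorem residue_mid {k : Type*} [Field k] {u V r : k} {a b a' b' e n : ℕ} (hV : V ≠ 0)
    (hab : a * (e + 1) = 1 + b * n) (hab' : a' * e = 1 + b' * n) (hu : u ^ n = V ^ (e + 1))
    (hr : r = u ^ a / V ^ b) (hr0 : r ≠ 0) :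
    (u / r) ^ a' / V ^ b' = r := by
  have hrq : r ^ (e + 1) = u := by
    rw [hr, div_pow, ← pow_mul, hab, pow_add, pow_one, mul_comm b n, pow_mul, hu, ← pow_mul,
      ← pow_mul, mul_comm (e + 1) b, mul_div_assoc, div_self (pow_ne_zero _ hV), mul_one]
  have hrn : r ^ n = V := by
    rw [hr, div_pow, ← pow_mul, mul_comm a n, pow_mul, hu, ← pow_mul, ← pow_mul, mul_comm (e + 1) a,
      hab, pow_add, pow_one, mul_div_assoc, div_self (pow_ne_zero _ hV), mul_one]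
  rw [← hrq, pow_succ, mul_div_assoc, div_self hr0, mul_one, ← pow_mul, mul_comm e a', hab', pow_add,
    pow_one, mul_comm b' n, pow_mul, hrn, mul_div_assoc, div_self (pow_ne_zero _ hV), mul_one]

variable {q M0 N' : ℕ} [NeZero M0] [NeZero N'] [NeZero q] [Fact q.Prime]
variable {C : Ctx q M0 N'} {k : Type} [Field k] {Ω : Res C k}

namespace Ram

/-- The roots on the branches, with no loss in the exponent. -/
def rootT {n : ℕ} {F : C.R} (A : NRel Ω n false F) (B : NRel Ω n true F) (κα κβ : k)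
    (a b a' b' : ℕ) (g : C.Sheet) : Fin 3 → LaurentSeries k
  | 0 => gS A κα g 0 ^ a / Ω.rs g 0 F ^ b
  | 1 => (gS A κα g 1 / (gS B κβ g 2 ^ a / Ω.rs g 2 F ^ b)) ^ a' / Ω.rs g 1 F ^ b'
  | 2 => gS B κβ g 2 ^ a / Ω.rs g 2 F ^ b

variable {n : ℕ} {F : C.R}

theorem rootT_pow {a b a' b' : ℕ} (hab : a * q = 1 + b * n) (hab' : a' * (q - 1) = 1 + b' * n)
    (hF : ∀ g j, Ω.rs g j F ≠ 0) (A : NRel Ω n false F) (B : NRel Ω n true F) {κα κβ : k}
    (hα : κα ^ n * Ω.φW A.c1 = Ω.φW A.c0) (hβ : κβ ^ n * Ω.φW B.c1 = Ω.φW B.c0)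
    (g : C.Sheet) (j : Fin 3) : rootT A B κα κβ a b a' b' g j ^ n = Ω.rs g j F := by
  obtain ⟨p1, p2, p3, p4⟩ := C.prod_fib_kind g (fun l => Ω.rd (C.emb l F))
    (fun j => Ω.rs g j F) fun l hl => by rw [Ω.rd_emb, hl]
  have r1 := (red_rel A hα g 0).symm.trans p1
  have r2 := (red_rel A hα g 1).symm.trans p2
  have r3 := (red_rel B hβ g 2).symm.trans p3
  have e2 := root_of_power hab (hF g 2) r3
  fin_cases j
  · exact root_of_power hab (hF g 0) r1
  · refine root_of_power hab' (hF g 1) ?_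
    show (gS A κα g 1 / (gS B κβ g 2 ^ a / Ω.rs g 2 F ^ b)) ^ n = _
    rw [div_pow (gS A κα g 1), e2, r2, mul_div_cancel_left₀ _ (hF g 2)]
  · exact e2

theorem rootT_mem {a b a' b' : ℕ} (hF : ∀ g j, Ω.rs g j F ≠ 0) (A : NRel Ω n false F)
    (B : NRel Ω n true F) {κα κβ : k} (hκβ : κβ ≠ 0)
    (j : Fin 3) : (fun g => rootT A B κα κβ a b a' b' g j) ∈ Ω.UF j := by
  have hC : ∀ κ : k, (fun _ : C.Sheet => (HahnSeries.C κ : LaurentSeries k)) ∈ Ω.UF j := fun κ => by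
    obtain ⟨w, hw⟩ := Ω.surjW κ
    convert Ω.rs_mem_UF j (C.cW w) using 1
    funext g
    rw [Res.rs, Ω.red_cW]
    exact congrArg _ hw.symm
  have hdiv : ∀ {X Y : C.Sheet → LaurentSeries k}, X ∈ Ω.UF j → Y ∈ Ω.UF j → (∀ g, Y g ≠ 0) →
      (fun g => X g / Y g) ∈ Ω.UF j := fun {X Y} hX hY hne => by
    convert (Ω.UF j).mul_mem hX (Ω.UF_inv hY hne) using 1
    funext g
    exact div_eq_mul_inv _ _
  have hg : ∀ {b : Bool} (N : NRel Ω n b F) (κ : k) (j' : Fin 3),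
      (fun g => gS N κ g j') ∈ Ω.UF j := fun N κ j' =>
    hdiv ((Ω.UF j).mul_mem (hC κ) (Ω.UF_transfer j j' N.G0)) (Ω.UF_transfer j j' N.G1)
      fun g => (N.hG g j').2
  have hR : ∀ {b' : Bool} (N : NRel Ω n b' F) (κ : k) (j' : Fin 3),
      (fun g => gS N κ g j' ^ a / Ω.rs g j' F ^ b) ∈ Ω.UF j := fun N κ j' =>
    hdiv ((Ω.UF j).pow_mem (hg N κ j') a) ((Ω.UF j).pow_mem (Ω.UF_transfer j j' F) b)
      fun g => pow_ne_zero _ (hF g j')
  fin_cases j
  · exact hR A κα 0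
  · exact hdiv ((Ω.UF 1).pow_mem (hdiv (hg A κα 1) (hR B κβ 2) fun g =>
      div_ne_zero (pow_ne_zero _ (gS_ne B hκβ g 2)) (pow_ne_zero _ (hF g 2))) a')
      ((Ω.UF 1).pow_mem (Ω.UF_transfer 1 1 F) b') fun g => pow_ne_zero _ (hF g 1)
  · exact hR B κβ 2

end Ram

variable [IsAlgClosed k] [IsNoetherianRing C.W]

namespace Pt

variable (p : Pt Ω)

/-- The value of a quotient seen on the branches through a supersingular point. -/
theorem ev_quo (E : Eqs Ω) (hss : p.π E.OmR = 0) {n : ℕ} {b : Bool} {F : C.R}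
    (N : Ram.NRel Ω n b F) (κ : k) {h : C.R} {y : k}
    (hy : p.ValK (Ram.quo N (algebraMap C.R C.KR h)) y) (hh : h ≠ 0) (g : C.Sheet) (j : Fin 3)
    (hle : RingHom.ker (Ω.rs g j) ≤ p.ideal) (j' : Fin 3) :
    (Ram.gS N κ g j' / ∏ l ∈ C.fib b (C.lg g j'), Ω.rd (C.emb l h), κ * y) ∈ p.EV g j := by
  obtain ⟨m, d, hd, h1, h2⟩ := hy
  obtain ⟨Ah, Dh, hDh, hAh⟩ := C.exists_fib_frac Ω.fixed b h
  have hG1 := (Ram.G_ne N).2
  have hN := C.Nf_ne Ω.fixed b (C.alg_ne hh)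
  have hR : d * (N.G0 * Dh) = m * (N.G1 * Ah) := IsFractionRing.injective C.R C.KR (by
    rw [map_mul, map_mul, map_mul, map_mul, ← h1, ← C.Nf_alg Ω.fixed b hAh, Ram.quo, div_div]
    field_simp)
  have hemb : ∀ l, C.emb l d * C.emb l N.G0 =
      C.emb l m * C.emb l N.G1 * ∏ l' ∈ C.fib b l, C.emb l' h := fun l => by
    have h1 := congrArg (C.emb l) hR
    simp only [map_mul, ← hAh l] at h1
    refine mul_right_cancel₀ (Ram.emb_ne (l := l) hDh) ?_
    linear_combination h1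
  obtain ⟨wκ, hwκ⟩ := Ω.surjW κ
  have hκev : ((HahnSeries.C κ : LaurentSeries k), κ) ∈ p.EV g j := by
    have := p.ev_self g j (C.cW wκ)
    rwa [show Ω.rs g j (C.cW wκ) = HahnSeries.C κ from (Ω.red_cW _ _).trans (congrArg _ hwκ),
      show p.π (C.cW wκ) = κ from (p.π_cW _).trans hwκ] at this
  have hev := (p.EV g j).mul_mem hκev ((p.EV g j).mul_mem (p.ev_transfer hle E hss j' m)
    (p.ev_inv hle (p.ev_transfer hle E hss j' d) hd))
  convert hev using 1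
  refine Prod.ext ?_ (by
    show κ * y = κ * (p.π m * (p.π d)⁻¹)
    rw [h2, mul_comm (p.π d), mul_assoc, mul_inv_cancel₀ hd, mul_one])
  have h3 := congrArg Ω.rd (hemb (C.lg g j'))
  rw [map_mul, map_mul, map_mul, map_prod, Ω.rs_lg, Ω.rs_lg, Ω.rs_lg, Ω.rs_lg] at h3
  have hd'ne : Ω.rs g j' d ≠ 0 := p.ev_ne hle (p.ev_transfer hle E hss j' d) hd
  have hpr : ∏ l ∈ C.fib b (C.lg g j'), Ω.rd (C.emb l h) ≠ 0 := fun h4 => by
    rw [h4, mul_zero] at h3
    exact mul_ne_zero hd'ne (N.hG g j').1 h3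
  show Ram.gS N κ g j' / _ = HahnSeries.C κ * (Ω.rs g j' m * (Ω.rs g j' d)⁻¹)
  have := (N.hG g j').2
  rw [Ram.gS]
  field_simp
  linear_combination (HahnSeries.C κ) * h3

/-- A common residue of the roots on the branches through a point, for trivial gluing. -/
theorem exists_residue_glued (E : Eqs Ω) {n : ℕ} (hn : n ≠ 0) {F : C.R} (hF : ∀ g j, Ω.rs g j F ≠ 0)
    (A : Ram.NRel Ω n false F) (B : Ram.NRel Ω n true F) {a b a' b' : ℕ} (hab : a * q = 1 + b * n)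
    (hab' : a' * (q - 1) = 1 + b' * n) {κα κβ : k} (hκβ : κβ ≠ 0)
    (hα : κα ^ n * Ω.φW A.c1 = Ω.φW A.c0) (hβ : κβ ^ n * Ω.φW B.c1 = Ω.φW B.c0)
    {s v h : C.R} (hs : p.π s ≠ 0) (hv : p.π v ≠ 0) (he : s * F = v * h ^ n)
    (hglue : p.π E.OmR = 0 → ∃ u : k, u ^ n = (p.π v / p.π s) ^ q ∧
      ∀ g j, RingHom.ker (Ω.rs g j) ≤ p.ideal → ∀ j',
        (Ram.gS A κα g j' / ∏ l ∈ C.fib false (C.lg g j'), Ω.rd (C.emb l h), u) ∈ p.EV g j ∧
        (Ram.gS B κβ g j' / ∏ l ∈ C.fib true (C.lg g j'), Ω.rd (C.emb l h), u) ∈ p.EV g j) :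
    ∃ ω : k, ω ≠ 0 ∧ ∀ g j, RingHom.ker (Ω.rs g j) ≤ p.ideal →
      (Ram.rootT A B κα κβ a b a' b' g j / Ω.rs g j h, ω) ∈ p.EV g j := by
  haveI := p.isNoetherian_loc
  set V := p.π v / p.π s
  have hV : V ≠ 0 := div_ne_zero hv hs
  by_cases hnone : ∀ g j, ¬ RingHom.ker (Ω.rs g j) ≤ p.ideal
  · exact ⟨1, one_ne_zero, fun g j h' => absurd h' (hnone g j)⟩
  push Not at hnone
  obtain ⟨g0, j0, hg0⟩ := hnone
  have hfact : ∀ g j, Ω.rs g j s * Ω.rs g j F = Ω.rs g j v * Ω.rs g j h ^ n := fun g j => by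
    rw [← map_mul, he, map_mul, map_pow]
  by_cases hss : p.π E.OmR = 0
  · obtain ⟨u, hu, hev⟩ := hglue hss
    have hu0 : u ≠ 0 := fun h0 => pow_ne_zero q hV (by rw [← hu, h0, zero_pow hn])
    set r := u ^ a / V ^ b with hr
    have hr0 : r ≠ 0 := div_ne_zero (pow_ne_zero _ hu0) (pow_ne_zero _ hV)
    refine ⟨r, hr0, fun g j hle => ?_⟩
    have hne : ∀ i, Ω.rs g i s ≠ 0 := fun i => p.ev_ne hle (p.ev_transfer hle E hss i s) hs
    have hh : ∀ i, Ω.rs g i h ≠ 0 := fun i h0 => mul_ne_zero (hne i) (hF g i) (by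
      rw [hfact, h0, zero_pow hn, mul_zero])
    have hvs : ∀ i, (Ω.rs g i F / Ω.rs g i h ^ n, V) ∈ p.EV g j := fun i => by
      convert (p.EV g j).mul_mem (p.ev_transfer hle E hss i v)
        (p.ev_inv hle (p.ev_transfer hle E hss i s) hs) using 1
      refine Prod.ext ?_ (div_eq_mul_inv _ _)
      show Ω.rs g i F / Ω.rs g i h ^ n = Ω.rs g i v * (Ω.rs g i s)⁻¹
      have := hne i
      have := pow_ne_zero n (hh i)
      field_simp
      linear_combination hfact g i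
    obtain ⟨p1, p2, p3, -⟩ := C.prod_fib_kind g (fun l => Ω.rd (C.emb l h))
      (fun j => Ω.rs g j h) fun l hl => by rw [Ω.rd_emb, hl]
    have a0 := (hev g j hle 0).1
    have a1 := (hev g j hle 1).1
    have b2 := (hev g j hle 2).2
    rw [p1] at a0
    rw [p2] at a1
    rw [p3] at b2
    have mk : ∀ {X : LaurentSeries k} {i : Fin 3} {x : k} {e c c' : ℕ}, c * e = 1 + c' * n →
        (X / Ω.rs g i h ^ e, x) ∈ p.EV g j →
        (X ^ c / Ω.rs g i F ^ c' / Ω.rs g i h, x ^ c / V ^ c') ∈ p.EV g j := by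
      intro X i x e c c' hc hX
      convert (p.EV g j).mul_mem ((p.EV g j).pow_mem hX c)
        (p.ev_inv hle ((p.EV g j).pow_mem (hvs i) c') (pow_ne_zero _ hV)) using 1
      refine Prod.ext ?_ (div_eq_mul_inv _ _)
      rw [← ratio_pow (hh i) hc]
      exact div_eq_mul_inv _ _
    have hR2 : (Ram.gS B κβ g 2 ^ a / Ω.rs g 2 F ^ b / Ω.rs g 2 h, r) ∈ p.EV g j := mk hab b2
    have hmid : (Ram.gS A κα g 1 / (Ram.gS B κβ g 2 ^ a / Ω.rs g 2 F ^ b) / Ω.rs g 1 h ^ (q - 1),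
        u / r) ∈ p.EV g j := by
      convert (p.EV g j).mul_mem a1 (p.ev_inv hle hR2 hr0) using 1
      refine Prod.ext ?_ (div_eq_mul_inv _ _)
      show _ = _ * _
      have := hh 2
      have := pow_ne_zero (q - 1) (hh 1)
      simp only [div_eq_mul_inv, mul_inv_rev, inv_inv]
      field_simp
    have hres := residue_mid (e := q - 1) hV (by rw [Nat.sub_add_cancel C.hq.one_le]; exact hab) hab'
      (by rw [Nat.sub_add_cancel C.hq.one_le]; exact hu) hr hr0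
    fin_cases j
    · exact mk hab a0
    · have h1 := mk hab' hmid
      rw [hres] at h1
      exact h1
    · exact hR2
  · -- ordinary point
    obtain ⟨A', D', hAD⟩ := Ram.rootT_mem (a := a) (b := b) (a' := a') (b' := b') (κα := κα)
      hF A B hκβ j0
    have hs' : ∀ g j, RingHom.ker (Ω.rs g j) ≤ p.ideal → Ω.rs g j s ≠ 0 := fun g j hle =>
      p.rs_ne hle hs
    have hh : ∀ g j, RingHom.ker (Ω.rs g j) ≤ p.ideal → Ω.rs g j h ≠ 0 := fun g j hle h0 =>
      mul_ne_zero (hs' g j hle) (hF g j) (by rw [hfact, h0, zero_pow hn, mul_zero])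
    set X : C.Sheet → LaurentSeries k := fun g =>
      Ram.rootT A B κα κβ a b a' b' g j0 / Ω.rs g j0 h
    have hXrel : ∀ g, RingHom.ker (Ω.rs g j0) ≤ p.ideal →
        Ω.rs g j0 (D' * h) ≠ 0 ∧ Ω.rs g j0 (D' * h) * X g = Ω.rs g j0 A' := fun g hle => by
      have := hh g j0 hle
      refine ⟨by rw [map_mul]; exact mul_ne_zero (hAD g).1 this, ?_⟩
      rw [map_mul, mul_assoc, mul_div_cancel₀ _ this]
      exact (hAD g).2
    have hXpow : ∀ g, RingHom.ker (Ω.rs g j0) ≤ p.ideal →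
        Ω.rs g j0 s * X g ^ n = Ω.rs g j0 v := fun g hle => by
      rw [div_pow, Ram.rootT_pow hab hab' hF A B hα hβ, ← mul_div_assoc,
        div_eq_iff (pow_ne_zero _ (hh g j0 hle)), hfact]
    obtain ⟨ω, hω⟩ := p.ev_root E hg0 hn (hXrel g0 hg0).1 (hXrel g0 hg0).2 hs (hXpow g0 hg0)
    refine ⟨ω, fun h0 => ?_, fun g j hle => ?_⟩
    · have h1 := (p.EV g0 j0).mul_mem (p.ev_self g0 j0 s) ((p.EV g0 j0).pow_mem hω n)
      rw [show (Ω.rs g0 j0 s, p.π s) * (X g0, ω) ^ n = (Ω.rs g0 j0 v, p.π s * ω ^ n) from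
        Prod.ext (hXpow g0 hg0) rfl] at h1
      have h2 := p.ev_unique hg0 (p.ev_self g0 j0 v) h1
      rw [h0, zero_pow hn, mul_zero] at h2
      exact hv h2
    · obtain rfl := p.kind_unique E hss hle hg0
      have hker := p.ker_unique E hg0 hle
      obtain ⟨c, d, hd, h1, h2⟩ := hω
      refine ⟨c, d, hd, ?_, h2⟩
      show Ω.rs g j d * X g = Ω.rs g j c
      obtain ⟨hne, hrel⟩ := hXrel g hle
      have hmem : d * A' - c * (D' * h) ∈ RingHom.ker (Ω.rs g0 j) := by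
        rw [RingHom.mem_ker, map_sub, map_mul, map_mul, ← (hXrel g0 hg0).2, ← h1]
        ring
      have h3 := RingHom.mem_ker.1 (hker hmem)
      rw [map_sub, map_mul, map_mul, ← hrel] at h3
      refine mul_left_cancel₀ hne ?_
      linear_combination h3

end Pt

variable [IsDiscreteValuationRing C.S]

namespace Ram

variable (ρ : Ram Ω)

include ρ in
/-- The root modulo a nilpotent element for a glued function. -/
theorem exists_root_glued {n : ℕ} (hn : (n : k) ≠ 0) (hcop : Nat.Coprime q n)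
    (hcop' : Nat.Coprime (q - 1) n) {F : C.R} (hF : ∀ g j, Ω.rs g j F ≠ 0) (hv : C.VDvd n F)
    (A : NRel Ω n false F) (B : NRel Ω n true F) (Eq' : Eqs Ω) {κα κβ : k} (hκβ : κβ ≠ 0)
    (hα : κα ^ n * Ω.φW A.c1 = Ω.φW A.c0) (hβ : κβ ^ n * Ω.φW B.c1 = Ω.φW B.c0)
    (hglue : ∀ p : Pt Ω, p.π Eq'.OmR = 0 → ∀ s v h : C.R, p.π s ≠ 0 → p.π v ≠ 0 →
      s * F = v * h ^ n → ∃ u : k, u ^ n = (p.π v / p.π s) ^ q ∧
        ∀ g j, RingHom.ker (Ω.rs g j) ≤ p.ideal → ∀ j',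
          (gS A κα g j' / ∏ l ∈ C.fib false (C.lg g j'), Ω.rd (C.emb l h), u) ∈ p.EV g j ∧
          (gS B κβ g j' / ∏ l ∈ C.fib true (C.lg g j'), Ω.rd (C.emb l h), u) ∈ p.EV g j) :
    ∃ (a j : C.R) (e : ℕ), a ^ n = F * (1 + j) ∧ (q : C.R) ∣ j ^ e := by
  haveI : Fintype C.Sheet := Finset.Subtype.fintype C.nodes
  have hn0 : n ≠ 0 := fun h => hn (by simp [h])
  haveI : NeZero n := ⟨hn0⟩
  obtain ⟨a, b, hab⟩ := exists_inv_exp C.hq.pos hn0 hcop
  obtain ⟨a₁, b₁, hab'⟩ := exists_inv_exp (show 0 < q - 1 by have := C.hq.two_le; omega) hn0 hcop'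
  set S : C.Sheet → Fin 3 → LaurentSeries k := fun g j => rootT A B κα κβ a b a₁ b₁ g j
  have hS : ∀ g j, S g j ^ n = Ω.rs g j F := fun g j => rootT_pow hab hab' hF A B hα hβ g j
  have hloc : ∀ P : Ideal C.R, P.IsMaximal → (q : C.R) ∈ P → ∃ (s v h t c : C.R),
      s ∉ P ∧ v ∉ P ∧ t ∉ P ∧ s * F = v * h ^ n ∧ (∀ g j, Ω.rs g j t * S g j = Ω.rs g j (h * c)) ∧
      ∀ b, F ∣ b ^ n → ∃ s, s ∉ P ∧ h ∣ s * b := by
    intro P hP hqP
    haveI := hP
    obtain ⟨p, rfl⟩ := Ω.exists_pt P hqP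
    obtain ⟨s, v, h, hs, hv', he⟩ := ρ.exists_local_factor hF hv p
    obtain ⟨ω, hω, hres⟩ := p.exists_residue_glued Eq' hn0 hF A B hab hab' hκβ hα hβ hs hv' he
      (fun hss => hglue p hss s v h hs hv' he)
    have hhne : ∀ g j, RingHom.ker (Ω.rs g j) ≤ p.ideal → Ω.rs g j h ≠ 0 := fun g j hle h0 => by
      have h1 := congrArg (Ω.rs g j) he
      rw [map_mul, map_mul, map_pow, h0, zero_pow hn0, mul_zero] at h1
      exact mul_ne_zero (p.rs_ne hle hs) (hF g j) h1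
    obtain ⟨t, c, ht, htc⟩ := p.exists_local_root hn S hs hv'
      (fun g j hle => ⟨by rw [hS, ← map_mul, he, map_mul, map_pow], hhne g j hle⟩) hω hres
    refine ⟨s, v, h, t, c, fun h0 => hs (p.mem_ideal.1 h0), fun h0 => hv' (p.mem_ideal.1 h0),
      fun h0 => ht (p.mem_ideal.1 h0), he, htc, fun b hb => ?_⟩
    haveI := p.isNoetherian_loc
    haveI := p.ufd_loc
    haveI := p.isIntegrallyClosed_loc
    set φ := algebraMap C.R p.Loc
    have hinj : Injective φ :=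
      IsLocalization.injective p.Loc (Ideal.primeCompl_le_nonZeroDivisors p.ideal)
    have hsu : IsUnit (φ s) := p.isUnit_algebraMap hs
    have hvu : IsUnit (φ v) := p.isUnit_algebraMap hv'
    have h1 : φ h ^ n ∣ φ b ^ n := by
      have h2 : φ v * φ h ^ n ∣ φ s * φ b ^ n := by
        rw [← map_pow φ h, ← map_mul, ← he, map_mul, ← map_pow φ b]
        exact mul_dvd_mul_left _ (map_dvd φ hb)
      exact (hsu.dvd_mul_left).1 ((hvu.mul_left_dvd).1 h2)
    obtain ⟨z, hz⟩ := (IsIntegrallyClosed.pow_dvd_pow_iff hn0).1 h1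
    obtain ⟨⟨zn, zd⟩, hzd⟩ := IsLocalization.surj p.ideal.primeCompl z
    change z * φ zd.1 = φ zn at hzd
    refine ⟨zd.1, zd.2, zn, hinj ?_⟩
    rw [map_mul, map_mul, hz, ← hzd]
    ring
  choose! ls lv lh lt lc hls hlv hlt hfac hglue hroot using hloc
  -- the global element
  let I : Ideal C.R :=
    { carrier := {t | ∃ a, ∀ g j, Ω.rs g j a = Ω.rs g j t * S g j}
      add_mem' := by
        rintro x y ⟨a, ha⟩ ⟨a', ha'⟩
        exact ⟨a + a', fun g j => by rw [map_add, ha, ha', map_add, add_mul]⟩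
      zero_mem' := ⟨0, fun g j => by simp⟩
      smul_mem' := by
        rintro c x ⟨a, ha⟩
        exact ⟨c * a, fun g j => by rw [smul_eq_mul, map_mul, ha, map_mul, mul_assoc]⟩ }
  have hqI : (q : C.R) ∈ I := ⟨0, fun g j => by
    rw [map_zero, show Ω.rs g j (q : C.R) = 0 from Ω.red_natCast _, zero_mul]⟩
  have hI : I = ⊤ := by
    by_contra hne
    obtain ⟨P, hP, hle⟩ := Ideal.exists_le_maximal _ hne
    exact hlt P hP (hle hqI) (hle ⟨lh P * lc P, fun g j => (hglue P hP (hle hqI) g j).symm⟩)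
  obtain ⟨a0, ha0⟩ : (1 : C.R) ∈ I := hI ▸ Submodule.mem_top
  set J : Ideal C.R := ⨅ i : C.Sheet × Fin 3, RingHom.ker (Ω.rs i.1 i.2) with hJ
  have hmemJ : ∀ {z : C.R}, (∀ g j, Ω.rs g j z = 0) → z ∈ J := fun {z} hz => by
    rw [hJ, Ideal.mem_iInf]
    exact fun i => hz i.1 i.2
  have hqJ : ∀ P : Ideal C.R, J ≤ P → (q : C.R) ∈ P := fun P hP =>
    hP (hmemJ fun g j => Ω.red_natCast _)
  haveI : ∀ i : C.Sheet × Fin 3, (RingHom.ker (Ω.rs i.1 i.2)).IsPrime := fun i => RingHom.ker_isPrime _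
  obtain ⟨a', j, hj, hjJ⟩ := exists_lift_root J (fun i : C.Sheet × Fin 3 => RingHom.ker (Ω.rs i.1 i.2)) hJ
    (Nat.pos_of_ne_zero hn0) (f := F) (a := a0)
    (fun i h0 => hF i.1 i.2 h0)
    (hmemJ fun g j => by rw [map_sub, map_pow, ha0, map_one, one_mul, hS, sub_self]) lh
    (fun P hP hJP => ⟨ls P, lv P, hls P hP (hqJ P hJP), hlv P hP (hqJ P hJP), hfac P hP (hqJ P hJP)⟩)
    (fun P hP hJP => hroot P hP (hqJ P hJP))
    (fun P hP hJP => ⟨lt P, lc P, hlt P hP (hqJ P hJP), hmemJ fun g j => by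
      rw [map_sub, map_mul, ha0, map_one, one_mul, hglue P hP (hqJ P hJP) g j, sub_self]⟩)
  refine ⟨a', j, Fintype.card C.Idx, hj, Ω.isNilpotent_of_forall fun l => ?_⟩
  show Ω.red (C.rep l) j = 0
  rw [Ω.red_rep]
  rw [hJ, Ideal.mem_iInf] at hjJ
  exact hjJ (C.sheet l, C.kind l)

end Ram

end FLTAgent.Carayol
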