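import Fermat.Agent.Entry.Gluing.Datum
import Fermat.Agent.EigenLattice.Dictionary

/-!
# Orders on the branches when `q ≡ -1`, and the gluing data of a function of level `q²M'`
-/

set_option autoImplicit false
set_option linter.unusedSectionVars false
set_option linter.style.haveILetI false
set_option synthInstance.maxHeartbeats 400000

noncomputable section

open UpperHalfPlane hiding I I_re I_im
open Filter Topology Complex Function FLTAgent.ModEq FLTAgent.GoodModel ModularCurve AlgebraicCurve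
open scoped MatrixGroups Manifold Classical

namespace FLTAgent.Carayol

local notation "QA" => AlgebraicClosure ℚ

/-- The exponent lost by the gluing. -/
def expS (q : ℕ) : ℕ := (q - 1) * (q - 1)

variable {q M0 N' : ℕ} [NeZero M0] [NeZero N'] [NeZero q] [Fact q.Prime]
variable {C : Ctx q M0 N'} {M' : ℕ} [NeZero M'] (P : Pull C M')

theorem Ctx.relB_mul {n : ℕ} {b : Bool} {f g : C.R} (h : C.RelB n b f) (h' : C.RelB n b g) :
    C.RelB n b (f * g) := by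
  obtain ⟨c0, c1, g0, g1, hc0, hc1, hg0, hg1, h⟩ := h
  obtain ⟨c0', c1', g0', g1', hc0', hc1', hg0', hg1', h'⟩ := h'
  refine ⟨c0 * c0', c1 * c1', g0 * g0', g1 * g1', mul_ne_zero hc0 hc0', mul_ne_zero hc1 hc1',
    mul_ne_zero hg0 hg0', mul_ne_zero hg1 hg1', fun l => ?_⟩
  simp only [map_mul, mul_pow, Finset.prod_mul_distrib]
  linear_combination (HahnSeries.C (C.inc c1') * C.emb l g1' ^ n *
    ∏ l' ∈ C.fib b l, C.emb l' g) * h l + (HahnSeries.C (C.inc c0) * C.emb l g0 ^ n) * h' l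

namespace Pull

theorem mem_range_of_W (w : C.W) : ∃ c : QA, P.κ c = (w : ℂ) :=
  RingHom.mem_range.1 (P.hS (C.hWS w.2))

theorem fh_cW (γ : SL(2, ℤ)) (w : C.W) :
    C.fh γ (algebraMap C.R C.KR (C.cW w)) = HahnSeries.C (w : ℂ) := by
  rw [C.fh_alg, C.embAt_cW, sIncl, HahnSeries.C_apply, coeffMap_single]
  rfl

theorem exists_fh_cW (w : C.W) : ∃ c : QA,
    C.fh 1 (algebraMap C.R C.KR (C.cW w)) = P.Theta 1 (algebraMap QA _ c) := by
  obtain ⟨c, hc⟩ := P.mem_range_of_W w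
  exact ⟨c, by rw [P.Theta_algebraMap, fh_cW, hc]⟩

theorem isFix_cW (w : C.W) : P.IsFix (algebraMap C.R C.KR (C.cW w)) := by
  obtain ⟨c, hc⟩ := P.exists_fh_cW w
  exact ⟨_, hc⟩

theorem isFix_div {z z' : C.KR} (h : P.IsFix z) (h' : P.IsFix z') : P.IsFix (z / z') := by
  obtain ⟨f, hf⟩ := h
  obtain ⟨f', hf'⟩ := h'
  exact ⟨f / f', by rw [map_div₀, map_div₀, hf, hf']⟩

/-- A root of a constant multiple of a power of a fixed expansion is fixed. -/
theorem isFix_of_pow {n : ℕ} (hn : n ≠ 0) {z : C.KR} {x : QA} (hx : x ≠ 0)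
    {g : modularFunctionFieldBar (q * M' * q)} (hg : g ≠ 0)
    (h : C.fh 1 z ^ n = HahnSeries.C (P.κ x) * P.Theta 1 g ^ n) : P.IsFix z := by
  haveI : NeZero n := ⟨hn⟩
  obtain ⟨y, hy⟩ := IsAlgClosed.exists_pow_nat_eq x (Nat.pos_of_ne_zero hn)
  obtain ⟨ζ, hζ⟩ := HasEnoughRootsOfUnity.exists_primitiveRoot QA n
  have hg' : P.Theta 1 g ≠ 0 := (map_ne_zero _).2 hg
  have hy0 : y ≠ 0 := fun h0 => hx (by rw [← hy, h0, zero_pow hn])
  have hCy : (HahnSeries.C (P.κ y) : LaurentSeries ℂ) ≠ 0 :=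
    HahnSeries.C_ne_zero ((map_ne_zero _).2 hy0)
  set S := C.fh 1 z / (HahnSeries.C (P.κ y) * P.Theta 1 g) with hS
  have hS1 : S ^ n = 1 := by
    rw [hS, div_pow, h, mul_pow, ← map_pow (HahnSeries.C : ℂ →+* LaurentSeries ℂ), ← map_pow P.κ, hy,
      div_self (mul_ne_zero (HahnSeries.C_ne_zero ((map_ne_zero _).2 hx)) (pow_ne_zero _ hg'))]
  obtain ⟨i, -, hi⟩ := (hζ.map_of_injective
    (f := (HahnSeries.C : ℂ →+* LaurentSeries ℂ).comp P.κ)
    (HahnSeries.C_injective.comp P.κ.injective)).eq_pow_of_pow_eq_one hS1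
  refine ⟨algebraMap QA _ (ζ ^ i * y) * g, ?_⟩
  rw [hS, eq_div_iff (mul_ne_zero hCy hg'), RingHom.comp_apply, ← map_pow, ← map_pow P.κ] at hi
  rw [map_mul, P.Theta_algebraMap, map_mul, map_mul, mul_assoc]
  exact hi.symm

/-- The norm on expansions. -/
theorem fh_Nf_fix (hF : C.FixedPart) (b : Bool) {z : C.KR}
    {f : modularFunctionFieldBar (q * M' * q)} (h : C.fh 1 z = P.Theta 1 f) :
    C.fh 1 (C.Nf hF b z) = (letI := algebraAlong (deg q M' b);
      P.Theta 1 (deg q M' b (Algebra.norm (modularFunctionFieldBar (q * M')) f))) := by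
  rw [C.fh_Nf, P.Theta_norm b f]
  exact Finset.prod_congr rfl fun l _ => P.fh_of_fix h _

/-- A function of level `q²M'` presented on the cover, with both norms powers. -/
structure Rat (n : ℕ) where
  f : modularFunctionFieldBar (q * M' * q)
  hf : f ≠ 0
  a : C.R
  e : C.R
  he : e ≠ 0
  had : P.eps 1 e * P.Theta 1 f = P.eps 1 a
  rel : ∀ b, C.RelB n b (a * e ^ (n - 1))
  hv : C.VDvd n (a * e ^ (n - 1))
  norm : ∀ b, ∃ g : modularFunctionFieldBar (q * M'), g ≠ 0 ∧ ∃ c : QA, c ≠ 0 ∧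
    (letI := algebraAlong (deg q M' b); Algebra.norm (modularFunctionFieldBar (q * M')) f) =
      algebraMap QA (modularFunctionFieldBar (q * M')) c * g ^ n

namespace Rat

variable {P} {n : ℕ}

theorem a_ne (R : P.Rat n) : R.a ≠ 0 := fun h => by
  have h1 := R.had
  rw [h, map_zero, mul_eq_zero] at h1
  rcases h1 with h1 | h1
  · exact R.he (P.eps_injective 1 (h1.trans (map_zero _).symm))
  · exact R.hf ((P.Theta 1).injective (h1.trans (map_zero _).symm))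

theorem fn_ne (R : P.Rat n) : R.a * R.e ^ (n - 1) ≠ 0 :=
  mul_ne_zero R.a_ne (pow_ne_zero _ R.he)

/-- Products. -/
def mul (R R' : P.Rat n) : P.Rat n where
  f := R.f * R'.f
  hf := mul_ne_zero R.hf R'.hf
  a := R.a * R'.a
  e := R.e * R'.e
  he := mul_ne_zero R.he R'.he
  had := by rw [map_mul, map_mul, map_mul, ← R.had, ← R'.had]; ring
  rel b := by rw [mul_pow, mul_mul_mul_comm]; exact Ctx.relB_mul (R.rel b) (R'.rel b)
  hv := by rw [mul_pow, mul_mul_mul_comm]; exact Ctx.vDvd_mul R.fn_ne R'.fn_ne R.hv R'.hv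
  norm b := by
    obtain ⟨g, hg, c, hc, h⟩ := R.norm b
    obtain ⟨g', hg', c', hc', h'⟩ := R'.norm b
    exact ⟨g * g', mul_ne_zero hg hg', c * c', mul_ne_zero hc hc', by
      rw [map_mul, h, h', map_mul, mul_pow]; ring⟩

/-- Powers. -/
def npow (R : P.Rat n) : ℕ → P.Rat n
  | 0 => R
  | e + 1 => (R.npow e).mul R

theorem npow_f (R : P.Rat n) (e : ℕ) : (R.npow e).f = R.f ^ (e + 1) := by
  induction e with
  | zero => simp [npow]
  | succ e ih => rw [pow_succ, ← ih]; rfl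

variable {k : Type} [Field k] {Ω : Res C k} [IsDiscreteValuationRing C.S] (ρ : Ram Ω)

/-- The difference of the orders on the two outer kinds of branches. -/
def diff (R : P.Rat n) : ZMod n :=
  (ρ.oe (C.lg ⟨C.eta, C.eta_mem_nodes⟩ 0) (R.a * R.e ^ (n - 1)) : ZMod n) -
    ρ.oe (C.lg ⟨C.eta, C.eta_mem_nodes⟩ 2) (R.a * R.e ^ (n - 1))

theorem diff_mul (R R' : P.Rat n) : (R.mul R').diff ρ = R.diff ρ + R'.diff ρ := by
  show ((ρ.oe _ (R.a * R'.a * (R.e * R'.e) ^ (n - 1)) : ℕ) : ZMod n) - ((_ : ℕ) : ZMod n) = _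
  rw [mul_pow, mul_mul_mul_comm, ρ.oe_mul _ R.fn_ne R'.fn_ne]
  show _ - ((ρ.oe _ (R.a * R'.a * (R.e * R'.e) ^ (n - 1)) : ℕ) : ZMod n) = _
  rw [mul_pow, mul_mul_mul_comm, ρ.oe_mul _ R.fn_ne R'.fn_ne, diff, diff]
  push_cast
  ring

theorem diff_npow (R : P.Rat n) (e : ℕ) : (R.npow e).diff ρ = (e + 1 : ℕ) * R.diff ρ := by
  induction e with
  | zero => simp [npow]
  | succ e ih => rw [npow, diff_mul, ih]; push_cast; ring

end Rat

end Pull

namespace Ram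

variable {k : Type} [Field k] {Ω : Res C k} [IsDiscreteValuationRing C.S] [IsAlgClosed k]
  [IsNoetherianRing C.W] (ρ : Ram Ω)

set_option maxHeartbeats 800000 in
/-- When `q ≡ -1` the orders are congruent as soon as the outer ones are. -/
theorem ord_congr_neg {n : ℕ} [NeZero n] (h2 : Nat.Coprime 2 n) (hq : n ∣ q + 1) {f : C.R}
    (hf : f ≠ 0) (hα : C.RelB n false f) (hβ : C.RelB n true f)
    (hd : (ρ.oe (C.lg ⟨C.eta, C.eta_mem_nodes⟩ 0) f : ZMod n) =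
      ρ.oe (C.lg ⟨C.eta, C.eta_mem_nodes⟩ 2) f) :
    ∃ J : ℕ, J < n ∧ ∀ g j, ρ.oe (C.lg g j) f % n = J := by
  obtain ⟨ca, hca⟩ := ρ.relB_ord hf hα
  obtain ⟨cb, hcb⟩ := ρ.relB_ord hf hβ
  have hqn : (q : ZMod n) = -1 := by
    rw [eq_neg_iff_add_eq_zero, ← Nat.cast_one, ← Nat.cast_add]
    exact (ZMod.natCast_eq_zero_iff _ _).2 hq
  have hq1 : ((q - 1 : ℕ) : ZMod n) = -2 := by
    rw [Nat.cast_sub C.hq.one_le, Nat.cast_one, hqn]; norm_num
  have key : ∀ g, (ρ.oe (C.lg g 0) f : ZMod n) = -ca ∧ (ρ.oe (C.lg g 2) f : ZMod n) = -cb ∧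
      2 * (ρ.oe (C.lg g 1) f : ZMod n) = -ca - cb := fun g => by
    obtain ⟨s1, s2, s3, -⟩ := ρ.sum_fib g f hf
    have e1 := hca (C.lg g 0)
    have e2 := hca (C.lg g 1)
    have e3 := hcb (C.lg g 2)
    rw [s1] at e1
    rw [s2] at e2
    rw [s3] at e3
    push_cast [hq1, hqn] at e1 e2 e3
    exact ⟨by linear_combination -e1, by linear_combination -e3,
      by linear_combination -e2 - e3⟩
  have hab : ca = cb := by
    obtain ⟨h0, h2', -⟩ := key ⟨C.eta, C.eta_mem_nodes⟩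
    rw [h0, h2'] at hd
    exact neg_injective hd
  have hu : IsUnit ((2 : ℕ) : ZMod n) := (ZMod.isUnit_iff_coprime 2 n).2 h2
  refine ⟨(-ca).val, ZMod.val_lt _, fun g j => ?_⟩
  obtain ⟨k0, k2, k1⟩ := key g
  rw [← hab] at k1 k2
  rw [← ZMod.val_natCast]
  refine congrArg ZMod.val ?_
  have e1 : (ρ.oe (C.lg g 1) f : ZMod n) = -ca := hu.mul_left_cancel (by
    rw [Nat.cast_two]
    linear_combination k1)
  revert j
  exact Fin.forall_fin_succ.2 ⟨k0, Fin.forall_fin_two.2 ⟨e1, k2⟩⟩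

include ρ in
/-- Normalisation for congruent orders. -/
theorem exists_normalised_congr {n : ℕ} [NeZero n] {f : C.R} (hf : f ≠ 0) {J : ℕ}
    (hcon : ∀ g j, ρ.oe (C.lg g j) f % n = J)
    (hrel : ∀ b, C.RelB n b f) (hv : C.VDvd n f) :
    ∃ (F t r : C.R) (c : C.W), c ≠ 0 ∧ t ≠ 0 ∧ r ≠ 0 ∧ (∀ g j, Ω.rs g j F ≠ 0) ∧
      t ^ n * f ^ expS q = F * C.cW c * r ^ n ∧ C.VDvd n F ∧
      ∀ b, Nonempty (NRel Ω n b F) := by
  set m : C.Sheet → Fin 3 → ℕ := fun g j => ρ.oe (C.lg g j) f / n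
  obtain ⟨r, hr, hrord⟩ := ρ.exists_orders m fun g j g' j' hker => by
    show ρ.oe (C.lg g j) f / n = ρ.oe (C.lg g' j') f / n
    rw [ρ.oe_eq_of_ker (l := C.lg g j) (g := g') (j := j') ?_ hf]
    rw [← hker]
    ext x
    rw [RingHom.mem_ker, RingHom.mem_ker, ← Ω.rd_emb, Ω.rs_lg]
  have hqne := Eqs.natCast_q_ne (C := C)
  obtain ⟨t, a, hta, he⟩ := ρ.exists_clear (x := f ^ (q - 1)) (y := (q : C.R) ^ J * r ^ n)
    (pow_ne_zero _ hf) (mul_ne_zero (pow_ne_zero _ hqne) (pow_ne_zero _ hr)) fun g j => by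
      rw [ρ.oe_pow _ hf, ρ.oe_mul _ (pow_ne_zero _ hqne) (pow_ne_zero _ hr), ρ.oe_pow _ hqne,
        ρ.oe_pow _ hr, ρ.oe_natCast, hrord]
      have h1 := Nat.mod_add_div (ρ.oe (C.lg g j) f) n
      rw [hcon g j] at h1
      calc (q - 1) * ρ.oe (C.lg g j) f = (q - 1) * (J + n * m g j) := by rw [h1]
        _ = _ := by ring
  have ht0 : t ≠ 0 := fun h => (hta ⟨C.eta, C.eta_mem_nodes⟩ 0).1 (by rw [h, map_zero])
  set f5 := a * t ^ (n - 1)
  have hpred : t ^ n = t ^ (n - 1) * t := by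
    rw [← pow_succ, Nat.sub_add_cancel (NeZero.one_le)]
  have hc : ((q : C.W) ^ J) ≠ 0 := pow_ne_zero _ fun h => NeZero.ne q (by
    simpa using congrArg (fun z : C.W => (z : ℂ)) h)
  have he5 : t ^ n * f ^ (q - 1) = f5 * C.cW ((q : C.W) ^ J) * r ^ n := by
    rw [map_pow, map_natCast, hpred]
    linear_combination t ^ (n - 1) * he
  have hf5 : ∀ g j, Ω.rs g j f5 ≠ 0 := fun g j => by
    rw [map_mul, map_pow]; exact mul_ne_zero (hta g j).2 (pow_ne_zero _ (hta g j).1)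
  have hf5ne : f5 ≠ 0 := fun h => hf5 ⟨C.eta, C.eta_mem_nodes⟩ 0 (by rw [h, map_zero])
  refine ⟨f5 ^ (q - 1), t ^ (q - 1), r ^ (q - 1), ((q : C.W) ^ J) ^ (q - 1), pow_ne_zero _ hc,
    pow_ne_zero _ ht0, pow_ne_zero _ hr, fun g j => by rw [map_pow]; exact pow_ne_zero _ (hf5 g j), ?_,
    Ctx.vDvd_pow hf5ne (Ctx.vDvd_change hc (pow_ne_zero _ hf) hf5ne ht0 hr he5 (Ctx.vDvd_pow hf hv _)) _,
    fun b => ρ.nonempty_nrel (NeZero.ne n) hf5
      (Ctx.relB_change Ω.fixed hc ht0 hr he5 (Ctx.relB_pow (hrel b) _))⟩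
  have h2 := congrArg (· ^ (q - 1)) he5
  simp only [mul_pow, map_pow, ← pow_mul, expS] at h2 ⊢
  rw [mul_comm n (q - 1)] at h2
  exact h2

end Ram

namespace Pull.Rat

variable {P} {n : ℕ} [NeZero n] {k : Type} [Field k] {Ω : Res C k} [IsDiscreteValuationRing C.S]
  [IsAlgClosed k] [IsNoetherianRing C.W] (ρ : Ram Ω)

include ρ in
/-- The gluing datum of a function with congruent orders. -/
theorem exists_datum (h2 : Nat.Coprime 2 n) (hq : n ∣ q + 1) (R : P.Rat n) (hd : R.diff ρ = 0) :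
    ∃ (D : P.Datum Ω n) (c : QA), c ≠ 0 ∧
      C.fh 1 D.X = HahnSeries.C (P.κ c) * P.Theta 1 R.f ^ expS q := by
  obtain ⟨J, -, hcon⟩ := ρ.ord_congr_neg h2 hq R.fn_ne (R.rel false) (R.rel true) (sub_eq_zero.1 hd)
  obtain ⟨F, t, r, c, hc, ht, hr, hF, he, hvF, hN⟩ :=
    ρ.exists_normalised_congr R.fn_ne hcon R.rel R.hv
  set N := fun b => (hN b).some
  set ι := algebraMap C.R C.KR
  set Xf := ι R.a / ι R.e
  set E := expS q
  have hXf : C.fh 1 Xf = P.Theta 1 R.f := by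
    rw [map_div₀, P.fh_alg_eps, P.fh_alg_eps, ← R.had, mul_div_cancel_left₀]
    exact fun h => R.he (P.eps_injective 1 (h.trans (map_zero _).symm))
  have hXfix : P.IsFix Xf := ⟨_, hXf⟩
  have hc0 : ι (C.cW c) ≠ 0 := C.alg_ne (Ctx.cW_ne hc)
  have he0 : ι R.e ≠ 0 := C.alg_ne R.he
  set w := ι R.e ^ E * ι t / ι r with hwdef
  have hw : w ≠ 0 := div_ne_zero (mul_ne_zero (pow_ne_zero _ he0) (C.alg_ne ht)) (C.alg_ne hr)
  have hn : R.e ^ n = R.e ^ (n - 1) * R.e := by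
    rw [← pow_succ, Nat.sub_add_cancel (NeZero.one_le)]
  have heq : ι F = Xf ^ E / ι (C.cW c) * w ^ n := by
    have h1 := congrArg ι he
    simp only [map_mul, map_pow] at h1
    have h3 : ι R.a * ι R.e ^ (n - 1) = Xf * ι R.e ^ n := by
      rw [← map_pow ι R.e n, hn, map_mul, map_pow]
      simp only [Xf]
      field_simp
    rw [h3, mul_pow, ← pow_mul, mul_comm n E, pow_mul] at h1
    have h4 := pow_ne_zero n (C.alg_ne hr)
    rw [hwdef, div_pow (ι R.e ^ E * ι t), mul_pow (ι R.e ^ E)]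
    rw [div_mul_div_comm (Xf ^ E), eq_div_iff (mul_ne_zero hc0 h4)]
    linear_combination -h1
  obtain ⟨x, hx⟩ := P.exists_fh_cW c
  have hx0 : x ≠ 0 := fun h0 => hc0 (C.fh_injective 1 (by rw [hx, h0, map_zero, map_zero, map_zero]))
  refine ⟨⟨F, hF, hvF, N, Xf ^ E / ι (C.cW c), w, hw,
    P.isFix_div (P.isFix_pow hXfix E) (P.isFix_cW c), heq, fun b => ?_⟩, x⁻¹, inv_ne_zero hx0, ?_⟩
  · -- the norm roots
    obtain ⟨g, hg, cb, hcb, hnorm⟩ := R.norm b
    obtain ⟨x0, hx0'⟩ := P.exists_fh_cW (N b).c0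
    obtain ⟨x1, hx1'⟩ := P.exists_fh_cW (N b).c1
    have hne : ∀ {u : C.W} {y : QA}, Ω.φW u ≠ 0 →
        C.fh 1 (ι (C.cW u)) = P.Theta 1 (algebraMap QA _ y) → y ≠ 0 := fun {u y} hu hy h0 => by
      rw [h0, map_zero, map_zero, map_eq_zero] at hy
      exact C.alg_ne (Ctx.cW_ne fun h1 => hu (by rw [h1, map_zero])) hy
    set z := ι (N b).G0 / ι (N b).G1 / C.Nf Ω.fixed b w
    set Y := deg q M' b g with hY
    have hY0 : Y ≠ 0 := (map_ne_zero _).2 hg
    refine P.isFix_of_pow (x := x1 / x0 * cb ^ E / x ^ q) (NeZero.ne n) ?_ (pow_ne_zero E hY0) ?_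
    · exact div_ne_zero (mul_ne_zero (div_ne_zero (hne (N b).hc1 hx1') (hne (N b).hc0 hx0'))
        (pow_ne_zero _ hcb)) (pow_ne_zero _ hx0)
    have hzn : z ^ n = ι (C.cW (N b).c1) / ι (C.cW (N b).c0) *
        (C.Nf Ω.fixed b Xf ^ E / C.Nf Ω.fixed b (ι (C.cW c))) := by
      have hr := Ram.rel_KR (N b)
      have h0 := (Ram.G_ne (N b)).2
      have hN0 := C.Nf_ne Ω.fixed b hw
      have hc00 : ι (C.cW (N b).c0) ≠ 0 :=
        C.alg_ne (Ctx.cW_ne fun h1 => (N b).hc0 (by rw [h1, map_zero]))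
      have hNc := C.Nf_ne Ω.fixed b hc0
      have hdiv : C.Nf Ω.fixed b (Xf ^ E / ι (C.cW c)) =
          C.Nf Ω.fixed b Xf ^ E / C.Nf Ω.fixed b (ι (C.cW c)) := by
        rw [eq_div_iff hNc, ← map_mul, div_mul_cancel₀ _ hc0, map_pow]
      rw [show algebraMap C.R C.KR F = Xf ^ E / ι (C.cW c) * w ^ n from heq, map_mul, map_pow,
        hdiv] at hr
      simp only [z]
      rw [div_pow, div_pow, div_div, div_mul_eq_mul_div (b := ι (C.cW (N b).c0)),
        div_eq_div_iff (mul_ne_zero (pow_ne_zero _ h0) (pow_ne_zero _ hN0)) hc00]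
      linear_combination -hr
    rw [← map_pow, hzn, map_mul, map_div₀, hx0', hx1', map_div₀, map_pow,
      P.fh_Nf_fix Ω.fixed b hXf, hnorm, C.Nf_cW, map_pow, hx]
    simp only [map_mul, map_pow, map_div₀, AlgHom.commutes, P.Theta_algebraMap, ← hY]
    field_simp
    rw [mul_pow (HahnSeries.C (P.κ cb)), ← pow_mul, ← pow_mul, mul_comm n E, ← mul_assoc (HahnSeries.C (P.κ x1))]
  · show C.fh 1 (Xf ^ E / ι (C.cW c)) = _
    rw [map_div₀, map_pow, hXf, hx, P.Theta_algebraMap, map_inv₀, map_inv₀, ← div_eq_inv_mul]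

end Pull.Rat

end FLTAgent.Carayol
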