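import Fermat.Agent.Entry.Gluing.Basic

/-!
# Values at a point in the fraction field of the cover, and the values of the gluing

For a normalised function whose norms are, up to functions of level `q²M'`, powers, the quotient of
the two values of its norm roots at a supersingular point does not change along a move.
-/

set_option autoImplicit false
set_option linter.unusedSectionVars false
set_option linter.style.haveILetI false
set_option synthInstance.maxHeartbeats 400000

noncomputable section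

open UpperHalfPlane hiding I I_re I_im
open Filter Topology Complex Function FLTAgent.ModEq FLTAgent.GoodModel ModularCurve
open scoped MatrixGroups Manifold Classical

namespace FLTAgent.Carayol

variable {q M0 N' : ℕ} [NeZero M0] [NeZero N'] [NeZero q] [Fact q.Prime]
variable {C : Ctx q M0 N'} {k : Type} [Field k] {Ω : Res C k}

namespace Pt

variable (p : Pt Ω)

/-- The element has the value `x` at the point. -/
def ValK (z : C.KR) (x : k) : Prop :=
  ∃ n d : C.R, p.π d ≠ 0 ∧ algebraMap C.R C.KR d * z = algebraMap C.R C.KR n ∧ p.π n = p.π d * x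

theorem valK_alg (a : C.R) : p.ValK (algebraMap C.R C.KR a) (p.π a) :=
  ⟨a, 1, by rw [map_one]; exact one_ne_zero, by rw [map_one, one_mul], by rw [map_one, one_mul]⟩

theorem valK_unique {z : C.KR} {x x' : k} (h : p.ValK z x) (h' : p.ValK z x') : x = x' := by
  obtain ⟨n, d, hd, h1, h2⟩ := h
  obtain ⟨n', d', hd', h1', h2'⟩ := h'
  have e : n * d' = n' * d := IsFractionRing.injective C.R C.KR (by
    rw [map_mul, map_mul, ← h1, ← h1']; ring)
  have e2 := congrArg p.π e
  rw [map_mul, map_mul, h2, h2'] at e2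
  exact mul_left_cancel₀ (mul_ne_zero hd hd') (by linear_combination e2)

theorem valK_mul {z z' : C.KR} {x x' : k} (h : p.ValK z x) (h' : p.ValK z' x') :
    p.ValK (z * z') (x * x') := by
  obtain ⟨n, d, hd, h1, h2⟩ := h
  obtain ⟨n', d', hd', h1', h2'⟩ := h'
  exact ⟨n * n', d * d', by rw [map_mul]; exact mul_ne_zero hd hd',
    by rw [map_mul, map_mul, ← h1, ← h1']; ring, by rw [map_mul, map_mul, h2, h2']; ring⟩

theorem valK_inv {z : C.KR} {x : k} (h : p.ValK z x) (hx : x ≠ 0) : p.ValK z⁻¹ x⁻¹ := by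
  obtain ⟨n, d, hd, h1, h2⟩ := h
  have hn : p.π n ≠ 0 := h2 ▸ mul_ne_zero hd hx
  have hz : z ≠ 0 := fun h0 => hn (by
    rw [h0, mul_zero] at h1
    rw [IsFractionRing.injective C.R C.KR (h1.symm.trans (map_zero _).symm), map_zero])
  refine ⟨d, n, hn, ?_, ?_⟩
  · rw [← h1, mul_assoc, mul_inv_cancel₀ hz, mul_one]
  · rw [h2, mul_assoc, mul_inv_cancel₀ hx, mul_one]

theorem valK_div {z z' : C.KR} {x x' : k} (h : p.ValK z x) (h' : p.ValK z' x') (hx : x' ≠ 0) :
    p.ValK (z / z') (x / x') := by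
  rw [div_eq_mul_inv, div_eq_mul_inv]
  exact p.valK_mul h (p.valK_inv h' hx)

theorem valK_pow {z : C.KR} {x : k} (h : p.ValK z x) (e : ℕ) : p.ValK (z ^ e) (x ^ e) := by
  induction e with
  | zero => simpa using p.valK_alg 1
  | succ e ih => rw [pow_succ, pow_succ]; exact p.valK_mul ih h

theorem valK_cW (w : C.W) : p.ValK (algebraMap C.R C.KR (C.cW w)) (Ω.φW w) := by
  simpa [p.π_cW] using p.valK_alg (C.cW w)

variable [IsAlgClosed k] [IsNoetherianRing C.W]

/-- An element whose power has a value has a value. -/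
theorem exists_valK_root {n : ℕ} (hn : n ≠ 0) {z : C.KR} {x : k} (h : p.ValK (z ^ n) x) :
    ∃ y, y ^ n = x ∧ p.ValK z y := by
  haveI := p.isNoetherian_loc
  haveI := p.ufd_loc
  haveI := p.isIntegrallyClosed_loc
  set φ := algebraMap C.R p.Loc
  have hinj : Injective φ :=
    IsLocalization.injective p.Loc (Ideal.primeCompl_le_nonZeroDivisors p.ideal)
  obtain ⟨a, e, he, rfl⟩ := C.exists_alg_div z
  obtain ⟨m, d, hd, h1, -⟩ := id h
  have hR : d * a ^ n = m * e ^ n := IsFractionRing.injective C.R C.KR (by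
    rw [map_mul, map_mul, map_pow, map_pow, ← h1, div_pow, mul_assoc,
      div_mul_cancel₀ _ (pow_ne_zero n (C.alg_ne he))])
  obtain ⟨t, ht⟩ := (IsIntegrallyClosed.pow_dvd_pow_iff hn).1
    ((p.isUnit_algebraMap hd).dvd_mul_left.1 (⟨φ m, by
      rw [← map_pow, ← map_pow, ← map_mul, ← map_mul, hR, mul_comm]⟩ :
        φ e ^ n ∣ φ d * φ a ^ n))
  obtain ⟨⟨m', d'⟩, hmd⟩ := IsLocalization.surj p.ideal.primeCompl t
  change t * φ d'.1 = φ m' at hmd
  have hd' : p.π d'.1 ≠ 0 := fun h0 => d'.2 (p.mem_ideal.2 h0)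
  have hRd : d'.1 * a = m' * e := hinj (by rw [map_mul, map_mul, ht, ← hmd]; ring)
  have hv : p.ValK (algebraMap C.R C.KR a / algebraMap C.R C.KR e) (p.π m' / p.π d'.1) :=
    ⟨m', d'.1, hd', by rw [← mul_div_assoc, div_eq_iff (C.alg_ne he), ← map_mul, ← map_mul, hRd],
      by rw [mul_div_cancel₀ _ hd']⟩
  exact ⟨_, p.valK_unique (p.valK_pow hv n) h, hv⟩

/-- The norm of an element with a value at a supersingular point. -/
theorem valK_Nf (E : Eqs Ω) (hss : p.π E.OmR = 0) (b : Bool) {z : C.KR} {x : k}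
    (h : p.ValK z x) : p.ValK (C.Nf Ω.fixed b z) (x ^ q) := by
  haveI := p.isNoetherian_loc
  haveI := p.ufd_loc
  obtain ⟨l, hl⟩ := p.exists_branch
  have hle : RingHom.ker (Ω.rs (C.sheet l) (C.kind l)) ≤ p.ideal := fun a ha => hl (by
    show Ω.red (C.rep l) a = 0
    rw [Ω.red_rep]; exact ha)
  have key : ∀ a : C.R, p.ValK (C.Nf Ω.fixed b (algebraMap C.R C.KR a)) (p.π a ^ q) := fun a => by
    obtain ⟨A, D, t, hD, ht, hAD, hval⟩ := p.fib_value E hss hle b a
    obtain ⟨⟨m', d'⟩, hmd⟩ := IsLocalization.surj p.ideal.primeCompl t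
    change t * algebraMap C.R p.Loc d'.1 = algebraMap C.R p.Loc m' at hmd
    have hinj : Injective (algebraMap C.R p.Loc) :=
      IsLocalization.injective p.Loc (Ideal.primeCompl_le_nonZeroDivisors p.ideal)
    have hR : d'.1 * A = m' * D := hinj (by rw [map_mul, map_mul, ← ht, ← hmd]; ring)
    refine ⟨m', d'.1, fun h0 => d'.2 (p.mem_ideal.2 h0), mul_left_cancel₀ (C.alg_ne hD) ?_, ?_⟩
    · rw [mul_left_comm, C.Nf_alg Ω.fixed b hAD, ← map_mul, ← map_mul, hR, mul_comm]
    · rw [← hval, ← p.πL_alg m', ← hmd, map_mul, p.πL_alg, mul_comm]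
  obtain ⟨m, d, hd, h1, h2⟩ := h
  have hm : p.ValK (C.Nf Ω.fixed b (algebraMap C.R C.KR m)) (p.π d ^ q * x ^ q) := by
    rw [← mul_pow, ← h2]; exact key m
  have hd0 : d ≠ 0 := fun h0 => hd (by rw [h0, map_zero])
  have h3 := p.valK_div hm (key d) (pow_ne_zero _ hd)
  rwa [← h1, map_mul, mul_div_cancel_left₀ _ (C.Nf_ne Ω.fixed b (C.alg_ne hd0)),
    mul_div_cancel_left₀ _ (pow_ne_zero _ hd)] at h3

end Pt

namespace Ram

variable {n : ℕ} {b : Bool} {F : C.R}

/-- The quotient of the norm root by the norm of a local root. -/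
def quo (N : NRel Ω n b F) (h : C.KR) : C.KR :=
  algebraMap C.R C.KR N.G0 / algebraMap C.R C.KR N.G1 / C.Nf Ω.fixed b h

theorem G_ne (N : NRel Ω n b F) :
    algebraMap C.R C.KR N.G0 ≠ 0 ∧ algebraMap C.R C.KR N.G1 ≠ 0 :=
  ⟨C.alg_ne fun h => (N.hG ⟨C.eta, C.eta_mem_nodes⟩ 0).1 (by rw [h, map_zero]),
    C.alg_ne fun h => (N.hG ⟨C.eta, C.eta_mem_nodes⟩ 0).2 (by rw [h, map_zero])⟩

/-- The norm relation in the fraction field. -/
theorem rel_KR (N : NRel Ω n b F) :
    algebraMap C.R C.KR (C.cW N.c1) * algebraMap C.R C.KR N.G1 ^ n *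
        C.Nf Ω.fixed b (algebraMap C.R C.KR F) =
      algebraMap C.R C.KR (C.cW N.c0) * algebraMap C.R C.KR N.G0 ^ n := by
  refine C.fh_injective 1 ?_
  have h := congrArg (sIncl C.S) (N.rel C.one')
  simp only [map_mul, map_pow, map_prod, C.emb_one'] at h
  simp only [map_mul, map_pow, C.fh_Nf, C.fh_alg, C.embAt_cW]
  exact h

end Ram

variable [IsAlgClosed k] [IsNoetherianRing C.W]

/-- The power of the quotient by a local root has the value of the unit. -/
theorem Pt.valK_quo_pow (p : Pt Ω) (E : Eqs Ω) (hss : p.π E.OmR = 0) {n : ℕ} {b : Bool}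
    {F : C.R} (N : Ram.NRel Ω n b F) {s v h : C.R} (hh : h ≠ 0) (hs : p.π s ≠ 0)
    (he : s * F = v * h ^ n) :
    p.ValK (Ram.quo N (algebraMap C.R C.KR h) ^ n)
      (Ω.φW N.c1 / Ω.φW N.c0 * (p.π v / p.π s) ^ q) := by
  have h0 := (Ram.G_ne N).2
  have hs0 : algebraMap C.R C.KR s ≠ 0 := C.alg_ne fun h1 => hs (by rw [h1, map_zero])
  have hc0 : algebraMap C.R C.KR (C.cW N.c0) ≠ 0 :=
    C.alg_ne (Ctx.cW_ne fun h1 => N.hc0 (by rw [h1, map_zero]))
  have hkey : Ram.quo N (algebraMap C.R C.KR h) ^ n =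
      algebraMap C.R C.KR (C.cW N.c1) / algebraMap C.R C.KR (C.cW N.c0) *
        C.Nf Ω.fixed b (algebraMap C.R C.KR v / algebraMap C.R C.KR s) := by
    have hv : algebraMap C.R C.KR F =
        algebraMap C.R C.KR v / algebraMap C.R C.KR s * algebraMap C.R C.KR h ^ n := by
      rw [div_mul_eq_mul_div, eq_div_iff hs0, mul_comm, ← map_mul, he, map_mul, map_pow]
    have hr := Ram.rel_KR N
    rw [hv, map_mul, map_pow] at hr
    have hN := C.Nf_ne Ω.fixed b (C.alg_ne hh)
    rw [Ram.quo, div_pow, div_pow, div_div, div_mul_eq_mul_div,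
      div_eq_div_iff (mul_ne_zero (pow_ne_zero _ h0) (pow_ne_zero _ hN)) hc0]
    linear_combination -hr
  rw [hkey]
  exact p.valK_mul (p.valK_div (p.valK_cW _) (p.valK_cW _) N.hc0)
    (p.valK_Nf E hss b (p.valK_div (p.valK_alg v) (p.valK_alg s) hs))

end FLTAgent.Carayol
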